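import Fermat.Agent.EC.Flat.Coord
import Mathlib.Tactic.FieldSimp
import Mathlib.Tactic.LinearCombination
import Mathlib.Tactic.Ring

/-!
# Addition formulas in the chart at infinity

`some_add_of_hasAB`: an affine point plus a point given in the chart at infinity.
`hasAB_add_of_invSlope`: the sum of two affine points in the chart at infinity, through the inverse
of the slope.
-/

set_option autoImplicit false

open WeierstrassCurve.Affine (Point)

namespace Fermat.Agent.EC.Flat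

variable {L : Type*} [Field L] [DecidableEq L] {W : WeierstrassCurve.Affine L}

/-- The numerator `N = u - y₁ z³` of the slope. -/
def chordN (y₁ u z : L) : L := u - y₁ * z ^ 3

/-- The denominator `D = u - x₁ z²` of the slope. -/
def chordD (x₁ u z : L) : L := u - x₁ * z ^ 2

/-- The numerator of the abscissa of the sum. -/
def chordX (W : WeierstrassCurve.Affine L) (x₁ y₁ u z : L) : L :=
  W.a₂ * u ^ 2 + W.a₄ * u * z ^ 2 + W.a₆ * z ^ 4 - W.a₃ * u * z - 2 * u * y₁ * z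
    + y₁ ^ 2 * z ^ 4 + 2 * u ^ 2 * x₁ - u * x₁ ^ 2 * z ^ 2
    + W.a₁ * (-x₁ * u * z - y₁ * u * z ^ 2 + x₁ * y₁ * z ^ 4)
    - (W.a₂ + x₁) * chordD x₁ u z ^ 2

/-- `(chordX - x₁ D²) / z`. -/
def chordG (W : WeierstrassCurve.Affine L) (x₁ y₁ u z : L) : L :=
  W.a₄ * u * z + W.a₆ * z ^ 3 - W.a₃ * u - 2 * u * y₁ + y₁ ^ 2 * z ^ 3 - u * x₁ ^ 2 * z
    + W.a₁ * (-x₁ * u - y₁ * u * z + x₁ * y₁ * z ^ 3)
    - (W.a₂ + 2 * x₁) * (-2 * u * x₁ * z + x₁ ^ 2 * z ^ 3)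

omit [DecidableEq L] in
theorem chordX_sub (x₁ y₁ u z : L) :
    chordX W x₁ y₁ u z - x₁ * chordD x₁ u z ^ 2 = z * chordG W x₁ y₁ u z := by
  simp only [chordX, chordG, chordD]
  ring

/-- The ordinate of the sum. -/
def chordY (W : WeierstrassCurve.Affine L) (x₁ y₁ u z : L) : L :=
  -(chordN y₁ u z * chordG W x₁ y₁ u z / chordD x₁ u z ^ 3 + y₁)
    - W.a₁ * (chordX W x₁ y₁ u z / chordD x₁ u z ^ 2) - W.a₃

omit [DecidableEq L] in
theorem chord_u_z_of_hasAB {P : W.Point} {a b : L} (h : HasAB P a b) (hu : unitAB W a b ≠ 0) :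
    b = (a * (unitAB W a b)⁻¹) ^ 2 / (unitAB W a b)⁻¹ := by
  have he := h.equation
  have h2 : b * unitAB W a b = a ^ 2 := by
    simp only [unitAB]
    linear_combination -he
  field_simp
  exact h2

/-- An affine point plus a point given by coordinates `(a, b)` in the chart at infinity. -/
theorem some_add_of_hasAB {x₁ y₁ : L} (h₁ : W.Nonsingular x₁ y₁) {P₂ : W.Point} {a b : L}
    (hP : HasAB P₂ a b) (hu : unitAB W a b ≠ 0)
    (hD : chordD x₁ (unitAB W a b)⁻¹ (a * (unitAB W a b)⁻¹) ≠ 0) :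
    ∃ h₃, Point.some x₁ y₁ h₁ + P₂ = Point.some
      (chordX W x₁ y₁ (unitAB W a b)⁻¹ (a * (unitAB W a b)⁻¹) /
        chordD x₁ (unitAB W a b)⁻¹ (a * (unitAB W a b)⁻¹) ^ 2)
      (chordY W x₁ y₁ (unitAB W a b)⁻¹ (a * (unitAB W a b)⁻¹)) h₃ := by
  have hb := chord_u_z_of_hasAB hP hu
  rcases hP with ⟨rfl, rfl, rfl⟩ | ⟨x₂, y₂, h₂, rfl, hx₂, ha, hb'⟩
  · have hu1 : unitAB W (0 : L) 0 = 1 := by simp [unitAB, denAB]
    have hx : chordX W x₁ y₁ (unitAB W (0 : L) 0)⁻¹ (0 * (unitAB W (0 : L) 0)⁻¹) /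
        chordD x₁ (unitAB W (0 : L) 0)⁻¹ (0 * (unitAB W (0 : L) 0)⁻¹) ^ 2 = x₁ := by
      simp [hu1, chordX, chordD]
      ring
    have hy : chordY W x₁ y₁ (unitAB W (0 : L) 0)⁻¹ (0 * (unitAB W (0 : L) 0)⁻¹) = y₁ := by
      simp [hu1, chordY, chordX, chordD, chordG, chordN]
      ring
    refine ⟨by rwa [hx, hy], ?_⟩
    rw [add_zero, Point.some.injEq]
    exact ⟨hx.symm, hy.symm⟩
  · generalize huv : (unitAB W a b)⁻¹ = u at hD hb ⊢
    have hu0 : u ≠ 0 := huv ▸ inv_ne_zero hu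
    generalize hzv : a * u = z at hD hb ⊢
    have hz : z ≠ 0 := by
      rintro rfl
      exact one_div_ne_zero hx₂ (hb'.symm.trans (by simpa using hb))
    have hx2 : x₂ = u / z ^ 2 := by
      rw [← one_div_one_div x₂, ← hb', hb, one_div_div]
    have hy2 : y₂ = u / z ^ 3 := by
      have : y₂ = a * x₂ ^ 2 := by rw [ha]; field_simp
      rw [this, hx2, ← hzv]
      field_simp
    subst hx2 hy2
    have hne : x₁ ≠ u / z ^ 2 := fun h => hD <| by
      rw [chordD, h]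
      field_simp
      ring
    have he := (WeierstrassCurve.Affine.equation_iff _ _).1 h₂.1
    field_simp at he
    have hE : u ^ 2 - u ^ 3 + W.a₁ * u ^ 2 * z + W.a₃ * u * z ^ 3 - W.a₂ * u ^ 2 * z ^ 2
        - W.a₄ * u * z ^ 4 - W.a₆ * z ^ 6 = 0 := by
      apply mul_left_cancel₀ (pow_ne_zero 6 hz)
      linear_combination z ^ 6 * he
    have hN : chordN y₁ u z ^ 2 + W.a₁ * chordN y₁ u z * z * chordD x₁ u z
        - (W.a₂ + x₁) * z ^ 2 * chordD x₁ u z ^ 2 - u * chordD x₁ u z ^ 2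
        = z ^ 2 * chordX W x₁ y₁ u z := by
      simp only [chordX, chordN, chordD]
      linear_combination hE
    have hl : W.slope x₁ (u / z ^ 2) y₁ (u / z ^ 3) =
        chordN y₁ u z / (z * chordD x₁ u z) := by
      rw [WeierstrassCurve.Affine.slope_of_X_ne hne, eq_div_iff (mul_ne_zero hz hD),
        div_mul_eq_mul_div, div_eq_iff (sub_ne_zero.2 hne)]
      simp only [chordN, chordD]
      field_simp
      ring
    have hX : W.addX x₁ (u / z ^ 2) (W.slope x₁ (u / z ^ 2) y₁ (u / z ^ 3)) =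
        chordX W x₁ y₁ u z / chordD x₁ u z ^ 2 := by
      rw [hl, WeierstrassCurve.Affine.addX]
      field_simp
      linear_combination hN
    have hY : W.addY x₁ (u / z ^ 2) y₁ (W.slope x₁ (u / z ^ 2) y₁ (u / z ^ 3)) =
        chordY W x₁ y₁ u z := by
      rw [WeierstrassCurve.Affine.addY, WeierstrassCurve.Affine.negY,
        WeierstrassCurve.Affine.negAddY, hX, hl, chordY]
      have hsub := chordX_sub (W := W) x₁ y₁ u z
      field_simp
      linear_combination -chordN y₁ u z * hsub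
    refine ⟨?_, ?_⟩
    · rw [← hX, ← hY]
      exact WeierstrassCurve.Affine.nonsingular_add h₁ h₂ fun h => hne h.1
    · rw [Point.add_of_X_ne hne, Point.some.injEq]
      exact ⟨hX, hY⟩

omit [DecidableEq L] in
theorem Y_sub_mul_eq {x₁ y₁ x₂ y₂ : L} (h₁ : W.Equation x₁ y₁) (h₂ : W.Equation x₂ y₂) :
    (y₁ - y₂) * (y₁ + y₂ + W.a₁ * x₂ + W.a₃) =
      (x₁ - x₂) * (x₁ ^ 2 + x₁ * x₂ + x₂ ^ 2 + W.a₂ * (x₁ + x₂) + W.a₄ - W.a₁ * y₁) := by
  rw [WeierstrassCurve.Affine.equation_iff] at h₁ h₂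
  linear_combination h₁ - h₂

/-- The sum of two affine points in the chart at infinity, through the inverse slope `μ`. -/
theorem hasAB_add_of_invSlope {x₁ y₁ x₂ y₂ : L} (h₁ : W.Nonsingular x₁ y₁)
    (h₂ : W.Nonsingular x₂ y₂) {μ : L}
    (hμ : ((x₁ ^ 2 + x₁ * x₂ + x₂ ^ 2 + W.a₂ * (x₁ + x₂) + W.a₄ - W.a₁ * y₁ ≠ 0) ∧
        μ = (y₁ + y₂ + W.a₁ * x₂ + W.a₃) /
          (x₁ ^ 2 + x₁ * x₂ + x₂ ^ 2 + W.a₂ * (x₁ + x₂) + W.a₄ - W.a₁ * y₁)) ∨
      (y₁ ≠ y₂ ∧ μ = (x₁ - x₂) / (y₁ - y₂)))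
    (hden : 1 + W.a₁ * μ - (W.a₂ + x₁ + x₂) * μ ^ 2 ≠ 0) :
    HasAB (Point.some x₁ y₁ h₁ + Point.some x₂ y₂ h₂)
      (-μ / (1 + W.a₁ * μ - (W.a₂ + x₁ + x₂) * μ ^ 2)
        + x₁ * μ ^ 3 / (1 + W.a₁ * μ - (W.a₂ + x₁ + x₂) * μ ^ 2) ^ 2
        - y₁ * (μ ^ 2 / (1 + W.a₁ * μ - (W.a₂ + x₁ + x₂) * μ ^ 2)) ^ 2
        - W.a₁ * (μ ^ 2 / (1 + W.a₁ * μ - (W.a₂ + x₁ + x₂) * μ ^ 2))
        - W.a₃ * (μ ^ 2 / (1 + W.a₁ * μ - (W.a₂ + x₁ + x₂) * μ ^ 2)) ^ 2)
      (μ ^ 2 / (1 + W.a₁ * μ - (W.a₂ + x₁ + x₂) * μ ^ 2)) := by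
  have hid := Y_sub_mul_eq h₁.1 h₂.1
  by_cases hxy : x₁ = x₂ ∧ y₁ = W.negY x₂ y₂
  · have hs : y₁ + y₂ + W.a₁ * x₂ + W.a₃ = 0 := by
      rw [hxy.2, WeierstrassCurve.Affine.negY]
      ring
    obtain rfl : μ = 0 := by
      rcases hμ with ⟨-, h⟩ | ⟨-, h⟩
      · rw [h, hs, zero_div]
      · rw [h, hxy.1, sub_self, zero_div]
    exact Or.inl ⟨Point.add_of_Y_eq hxy.1 hxy.2, by simp, by simp⟩
  · have hl : μ ≠ 0 ∧ W.slope x₁ x₂ y₁ y₂ = 1 / μ := by
      by_cases hx : x₁ = x₂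
      · have hy : y₁ ≠ W.negY x₂ y₂ := fun h => hxy ⟨hx, h⟩
        have hyy : y₁ = y₂ := WeierstrassCurve.Affine.Y_eq_of_Y_ne h₁.1 h₂.1 hx hy
        rcases hμ with ⟨hnum, rfl⟩ | ⟨hne, -⟩
        · subst hx hyy
          rw [WeierstrassCurve.Affine.negY] at hy
          have hs : y₁ + y₁ + W.a₁ * x₁ + W.a₃ ≠ 0 := fun h => hy (by linear_combination h)
          refine ⟨div_ne_zero hs hnum, ?_⟩
          rw [WeierstrassCurve.Affine.slope_of_Y_ne rfl (by rwa [WeierstrassCurve.Affine.negY]),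
            WeierstrassCurve.Affine.negY, one_div_div]
          congr 1 <;> ring
        · exact absurd hyy hne
      · have hyy : y₁ ≠ y₂ := by
          rcases hμ with ⟨hnum, -⟩ | ⟨hne, -⟩
          · rintro rfl
            rw [sub_self, zero_mul] at hid
            exact mul_ne_zero (sub_ne_zero.2 hx) hnum hid.symm
          · exact hne
        have hμ' : μ = (x₁ - x₂) / (y₁ - y₂) := by
          rcases hμ with ⟨hnum, rfl⟩ | ⟨-, rfl⟩
          · rw [div_eq_div_iff hnum (sub_ne_zero.2 hyy)]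
            linear_combination hid
          · rfl
        rw [hμ', WeierstrassCurve.Affine.slope_of_X_ne hx, one_div_div]
        exact ⟨div_ne_zero (sub_ne_zero.2 hx) (sub_ne_zero.2 hyy), rfl⟩
    obtain ⟨hμ0, hl⟩ := hl
    have hX : W.addX x₁ x₂ (W.slope x₁ x₂ y₁ y₂) =
        (1 + W.a₁ * μ - (W.a₂ + x₁ + x₂) * μ ^ 2) / μ ^ 2 := by
      rw [hl, WeierstrassCurve.Affine.addX]
      field_simp
      ring
    have hX0 : W.addX x₁ x₂ (W.slope x₁ x₂ y₁ y₂) ≠ 0 := by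
      rw [hX]
      exact div_ne_zero hden (pow_ne_zero 2 hμ0)
    refine Or.inr ⟨_, _, _, Point.add_some hxy, hX0, ?_, by rw [hX, one_div_div]⟩
    rw [WeierstrassCurve.Affine.addY, WeierstrassCurve.Affine.negY,
      WeierstrassCurve.Affine.negAddY, hX, hl]
    field_simp
    ring

end Fermat.Agent.EC.Flat
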