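import Mathlib.AlgebraicGeometry.EllipticCurve.Affine.Point
import Mathlib.Tactic.LinearCombination
import Mathlib.Tactic.FieldSimp

/-!
# The chord construction near the origin

In the coordinates `z = x / y`, `w = 1 / y` a Weierstrass curve is
`w + a₁zw + a₃w² = z³ + a₂z²w + a₄zw² + a₆w³`. The sum of two points is given by one formula in
these coordinates, valid for chords, tangents, inverse points and the origin, as long as three
explicit expressions (each equal to `1` at the origin) do not vanish.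
-/

set_option autoImplicit false
set_option linter.unusedVariables false

namespace Fermat.Agent.EC.Flat

open WeierstrassCurve.Affine (Point)

variable {L : Type*} [Field L]

/-- The point `P` has coordinates `z = x / y` and `w = 1 / y`. -/
def HasZW (W : WeierstrassCurve.Affine L) (P : W.Point) (z w : L) : Prop :=
  (P = 0 ∧ z = 0 ∧ w = 0) ∨
    ∃ (x y : L) (h : W.Nonsingular x y), P = .some x y h ∧ y ≠ 0 ∧ z = x / y ∧ w = 1 / y

namespace Chord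

/-- The denominator of the slope of the chord. -/
def den (W : WeierstrassCurve.Affine L) (z₁ w₁ z₂ w₂ : L) : L :=
  1 + W.a₁ * z₂ + W.a₃ * (w₁ + w₂) - W.a₂ * z₂ ^ 2 - W.a₄ * z₂ * (w₁ + w₂) -
    W.a₆ * (w₁ ^ 2 + w₁ * w₂ + w₂ ^ 2)

/-- The numerator of the slope of the chord. -/
def num (W : WeierstrassCurve.Affine L) (z₁ w₁ z₂ w₂ : L) : L :=
  z₁ ^ 2 + z₁ * z₂ + z₂ ^ 2 - W.a₁ * w₁ + W.a₂ * w₁ * (z₁ + z₂) + W.a₄ * w₁ ^ 2

/-- The slope of the chord. -/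
def lam (W : WeierstrassCurve.Affine L) (z₁ w₁ z₂ w₂ : L) : L := num W z₁ w₁ z₂ w₂ / den W z₁ w₁ z₂ w₂

/-- The intercept of the chord. -/
def icpt (W : WeierstrassCurve.Affine L) (z₁ w₁ z₂ w₂ : L) : L := w₁ - lam W z₁ w₁ z₂ w₂ * z₁

/-- The cubic coefficient of the intersection. -/
def lead (W : WeierstrassCurve.Affine L) (z₁ w₁ z₂ w₂ : L) : L :=
  1 + W.a₂ * lam W z₁ w₁ z₂ w₂ + W.a₄ * lam W z₁ w₁ z₂ w₂ ^ 2 + W.a₆ * lam W z₁ w₁ z₂ w₂ ^ 3

/-- The quadratic coefficient of the intersection. -/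
def sub (W : WeierstrassCurve.Affine L) (z₁ w₁ z₂ w₂ : L) : L :=
  W.a₂ * icpt W z₁ w₁ z₂ w₂ + 2 * W.a₄ * lam W z₁ w₁ z₂ w₂ * icpt W z₁ w₁ z₂ w₂ +
    3 * W.a₆ * lam W z₁ w₁ z₂ w₂ ^ 2 * icpt W z₁ w₁ z₂ w₂ - W.a₁ * lam W z₁ w₁ z₂ w₂ -
    W.a₃ * lam W z₁ w₁ z₂ w₂ ^ 2

/-- The `z`-coordinate of the third point of the chord. -/
def thirdZ (W : WeierstrassCurve.Affine L) (z₁ w₁ z₂ w₂ : L) : L := -sub W z₁ w₁ z₂ w₂ / lead W z₁ w₁ z₂ w₂ - z₁ - z₂

/-- The `w`-coordinate of the third point of the chord. -/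
def thirdW (W : WeierstrassCurve.Affine L) (z₁ w₁ z₂ w₂ : L) : L := lam W z₁ w₁ z₂ w₂ * thirdZ W z₁ w₁ z₂ w₂ + icpt W z₁ w₁ z₂ w₂

/-- The denominator of the negation at the third point. -/
def negDen (W : WeierstrassCurve.Affine L) (z₁ w₁ z₂ w₂ : L) : L := 1 + W.a₁ * thirdZ W z₁ w₁ z₂ w₂ + W.a₃ * thirdW W z₁ w₁ z₂ w₂

/-- The `z`-coordinate of the sum. -/
def addZ (W : WeierstrassCurve.Affine L) (z₁ w₁ z₂ w₂ : L) : L := -thirdZ W z₁ w₁ z₂ w₂ / negDen W z₁ w₁ z₂ w₂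

/-- The `w`-coordinate of the sum. -/
def addW (W : WeierstrassCurve.Affine L) (z₁ w₁ z₂ w₂ : L) : L := -thirdW W z₁ w₁ z₂ w₂ / negDen W z₁ w₁ z₂ w₂

end Chord

open Chord

variable {W : WeierstrassCurve.Affine L}

/-- The curve equation in `(z, w)`. -/
theorem equation_zw {x y : L} (h : W.Equation x y) (hy : y ≠ 0) :
    1 / y + W.a₁ * (x / y) * (1 / y) + W.a₃ * (1 / y) ^ 2 =
      (x / y) ^ 3 + W.a₂ * (x / y) ^ 2 * (1 / y) + W.a₄ * (x / y) * (1 / y) ^ 2 +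
        W.a₆ * (1 / y) ^ 3 := by
  rw [WeierstrassCurve.Affine.equation_iff] at h
  field_simp
  linear_combination h

theorem HasZW.equation {P : W.Point} {z w : L} (h : HasZW W P z w) :
    w + W.a₁ * z * w + W.a₃ * w ^ 2 =
      z ^ 3 + W.a₂ * z ^ 2 * w + W.a₄ * z * w ^ 2 + W.a₆ * w ^ 3 := by
  rcases h with ⟨-, rfl, rfl⟩ | ⟨x, y, hns, -, hy, rfl, rfl⟩
  · ring
  · exact equation_zw hns.1 hy

/-- A line through the origin meets the curve again at the inverse point. -/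
theorem line_through_origin {z w l : L}
    (heq : w + W.a₁ * z * w + W.a₃ * w ^ 2 =
      z ^ 3 + W.a₂ * z ^ 2 * w + W.a₄ * z * w ^ 2 + W.a₆ * w ^ 3)
    (hw : w = l * z) (hz : z ≠ 0) (hA : 1 + W.a₂ * l + W.a₄ * l ^ 2 + W.a₆ * l ^ 3 ≠ 0) :
    1 + W.a₁ * z + W.a₃ * w ≠ 0 ∧
      (W.a₁ * l + W.a₃ * l ^ 2) / (1 + W.a₂ * l + W.a₄ * l ^ 2 + W.a₆ * l ^ 3) - z =
        -z / (1 + W.a₁ * z + W.a₃ * w) := by
  set A := 1 + W.a₂ * l + W.a₄ * l ^ 2 + W.a₆ * l ^ 3 with hAdef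
  subst hw
  have h1 : A * z ^ 2 = l * (1 + W.a₁ * z + W.a₃ * (l * z)) := by
    apply mul_right_cancel₀ hz
    rw [hAdef]
    linear_combination -heq
  have hE : 1 + W.a₁ * z + W.a₃ * (l * z) ≠ 0 := fun h => by
    rw [h, mul_zero, mul_eq_zero, pow_eq_zero_iff two_ne_zero] at h1
    exact h1.elim hA hz
  refine ⟨hE, ?_⟩
  rw [div_sub' hA, div_eq_div_iff hA hE]
  linear_combination (-(W.a₁ + W.a₃ * l)) * h1

/-- Negation in the coordinates `(z, w)` is an involution. -/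
theorem neg_neg_zw {z w l : L} (hw : w = l * z) (hne : 1 + W.a₁ * z + W.a₃ * w ≠ 0) :
    -(-z / (1 + W.a₁ * z + W.a₃ * w)) /
        (1 + W.a₁ * (-z / (1 + W.a₁ * z + W.a₃ * w)) +
          W.a₃ * (l * (-z / (1 + W.a₁ * z + W.a₃ * w)))) = z ∧
      -(l * (-z / (1 + W.a₁ * z + W.a₃ * w))) /
        (1 + W.a₁ * (-z / (1 + W.a₁ * z + W.a₃ * w)) +
          W.a₃ * (l * (-z / (1 + W.a₁ * z + W.a₃ * w)))) = w := by
  set E := 1 + W.a₁ * z + W.a₃ * w with hEdef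
  have h1 : 1 + W.a₁ * (-z / E) + W.a₃ * (l * (-z / E)) = 1 / E := by
    field_simp
    rw [hEdef, hw]
    ring
  rw [h1, hw]
  constructor <;> field_simp

/-- The algebra of a chord not through the origin. -/
theorem chord_core {a₁ a₂ a₃ a₄ a₆ m c x₁ x₂ x₃ y₁ y₂ y₃ : L} (hc : c ≠ 0)
    (hy₁ : y₁ = m * x₁ + c) (hy₂ : y₂ = m * x₂ + c) (hy₃ : y₃ = m * x₃ + c)
    (he₁ : x₁ + x₂ + x₃ = m ^ 2 + a₁ * m - a₂)
    (he₂ : x₁ * x₂ + x₁ * x₃ + x₂ * x₃ = a₄ - 2 * m * c - a₁ * c - a₃ * m)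
    (he₃ : x₁ * x₂ * x₃ = c ^ 2 + a₃ * c - a₆) {l v A : L} (hl : l = -m / c) (hv : v = 1 / c)
    (hA : A = 1 + a₂ * l + a₄ * l ^ 2 + a₆ * l ^ 3) (hA0 : A ≠ 0)
    (hn₁ : y₁ ≠ 0) (hn₂ : y₂ ≠ 0) :
    y₃ ≠ 0 ∧ -(a₂ * v + 2 * a₄ * l * v + 3 * a₆ * l ^ 2 * v - a₁ * l - a₃ * l ^ 2) / A -
      x₁ / y₁ - x₂ / y₂ = x₃ / y₃ ∧ l * (x₃ / y₃) + v = 1 / y₃ := by
  have hprod : A * c ^ 3 = y₁ * y₂ * y₃ := by
    subst hA hl hy₁ hy₂ hy₃
    field_simp
    linear_combination (-(m * c ^ 2)) * he₁ - m ^ 2 * c * he₂ - m ^ 3 * he₃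
  have hn₃ : y₃ ≠ 0 := fun h => by
    rw [h, mul_zero, mul_eq_zero, pow_eq_zero_iff three_ne_zero] at hprod
    exact hprod.elim hA0 hc
  have hB : -(a₂ * v + 2 * a₄ * l * v + 3 * a₆ * l ^ 2 * v - a₁ * l - a₃ * l ^ 2) * c ^ 3 =
      x₁ * y₂ * y₃ + x₂ * y₁ * y₃ + x₃ * y₁ * y₂ := by
    subst hl hv hy₁ hy₂ hy₃
    field_simp
    linear_combination (-(c ^ 2)) * he₁ - 2 * m * c * he₂ - 3 * m ^ 2 * he₃
  refine ⟨hn₃, ?_, ?_⟩
  · rw [← mul_div_mul_right _ A (pow_ne_zero 3 hc), hB, hprod]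
    field_simp
    ring
  · subst hl hv
    field_simp
    linear_combination hy₃

variable [DecidableEq L]

/-- The sum of two points near the origin, in the coordinates `(z, w)`. -/
theorem hasZW_add {P₁ P₂ : W.Point} {z₁ w₁ z₂ w₂ : L} (h₁ : HasZW W P₁ z₁ w₁)
    (h₂ : HasZW W P₂ z₂ w₂) (hD : den W z₁ w₁ z₂ w₂ ≠ 0) (hA : lead W z₁ w₁ z₂ w₂ ≠ 0)
    (hE : negDen W z₁ w₁ z₂ w₂ ≠ 0) :
    HasZW W (P₁ + P₂) (addZ W z₁ w₁ z₂ w₂) (addW W z₁ w₁ z₂ w₂) := by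
  have e₁ := h₁.equation
  have e₂ := h₂.equation
  set l := lam W z₁ w₁ z₂ w₂ with hldef
  have hlN : l * den W z₁ w₁ z₂ w₂ = num W z₁ w₁ z₂ w₂ := div_mul_cancel₀ _ hD
  have hline : w₁ - w₂ = l * (z₁ - z₂) := by
    apply mul_right_cancel₀ hD
    rw [mul_right_comm l, hlN]
    simp only [den, num]
    linear_combination e₁ - e₂
  -- the two degenerate cases are lines through the origin
  have origin : ∀ {z w : L}, icpt W z₁ w₁ z₂ w₂ = 0 →
      w + W.a₁ * z * w + W.a₃ * w ^ 2 =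
        z ^ 3 + W.a₂ * z ^ 2 * w + W.a₄ * z * w ^ 2 + W.a₆ * w ^ 3 → w = l * z → z ≠ 0 →
      1 + W.a₁ * z + W.a₃ * w ≠ 0 ∧
        -sub W z₁ w₁ z₂ w₂ / lead W z₁ w₁ z₂ w₂ - z = -z / (1 + W.a₁ * z + W.a₃ * w) := by
    intro z w hv heq hw hz
    obtain ⟨hne, h⟩ := line_through_origin heq hw hz hA
    refine ⟨hne, ?_⟩
    rw [← h]
    congr 2
    simp only [Chord.sub, hv, ← hldef]
    ring
  rcases h₁ with ⟨rfl, rfl, rfl⟩ | ⟨x₁, y₁, hns₁, rfl, hy₁, hz₁, hw₁⟩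
  · have hv : icpt W (0 : L) 0 z₂ w₂ = 0 := by simp [icpt]
    rcases h₂ with ⟨rfl, rfl, rfl⟩ | ⟨x₂, y₂, hns₂, rfl, hy₂, hz₂, hw₂⟩
    · refine Or.inl ⟨zero_add _, ?_, ?_⟩ <;>
        simp [addZ, addW, thirdW, thirdZ, Chord.sub, icpt, lam, num]
    have hw2 : w₂ = l * z₂ := by linear_combination -hline
    have hz0 : z₂ ≠ 0 := fun h => by
      rw [h, mul_zero, hw₂] at hw2
      exact one_div_ne_zero hy₂ hw2
    obtain ⟨hne, h⟩ := origin hv e₂ hw2 hz0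
    refine Or.inr ⟨x₂, y₂, hns₂, zero_add _, hy₂, ?_, ?_⟩
    · rw [← hz₂]
      have hz' : thirdZ W 0 0 z₂ w₂ = -z₂ / (1 + W.a₁ * z₂ + W.a₃ * w₂) := by
        rw [thirdZ, sub_zero, h]
      simp only [addZ, negDen, thirdW, hz', hv, ← hldef, add_zero]
      exact (neg_neg_zw hw2 hne).1
    · rw [← hw₂]
      have hz' : thirdZ W 0 0 z₂ w₂ = -z₂ / (1 + W.a₁ * z₂ + W.a₃ * w₂) := by
        rw [thirdZ, sub_zero, h]
      simp only [addW, negDen, thirdW, hz', hv, ← hldef, add_zero]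
      exact (neg_neg_zw hw2 hne).2
  rcases h₂ with ⟨rfl, rfl, rfl⟩ | ⟨x₂, y₂, hns₂, rfl, hy₂, hz₂, hw₂⟩
  · have hw1 : w₁ = l * z₁ := by linear_combination hline
    have hv : icpt W z₁ w₁ 0 0 = 0 := by simp [icpt, ← hldef, ← hw1]
    have hz0 : z₁ ≠ 0 := fun h => by
      rw [h, mul_zero, hw₁] at hw1
      exact one_div_ne_zero hy₁ hw1
    obtain ⟨hne, h⟩ := origin hv e₁ hw1 hz0
    have hz' : thirdZ W z₁ w₁ 0 0 = -z₁ / (1 + W.a₁ * z₁ + W.a₃ * w₁) := by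
      rw [thirdZ, sub_zero, h]
    refine Or.inr ⟨x₁, y₁, hns₁, add_zero _, hy₁, ?_, ?_⟩
    · rw [← hz₁]
      simp only [addZ, negDen, thirdW, hz', hv, ← hldef, add_zero]
      exact (neg_neg_zw hw1 hne).1
    · rw [← hw₁]
      simp only [addW, negDen, thirdW, hz', hv, ← hldef, add_zero]
      exact (neg_neg_zw hw1 hne).2
  have hline₂ : w₂ = l * z₂ + icpt W z₁ w₁ z₂ w₂ := by
    simp only [icpt, ← hldef]; linear_combination -hline
  have hline₁ : w₁ = l * z₁ + icpt W z₁ w₁ z₂ w₂ := by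
    simp only [icpt, ← hldef]; ring
  -- the tangent passes through the origin only at a point of order two
  have htan : z₁ = z₂ → w₁ = w₂ → icpt W z₁ w₁ z₂ w₂ * den W z₁ w₁ z₂ w₂ =
      -(w₁ * (2 + W.a₁ * z₁ + W.a₃ * w₁)) := by
    rintro rfl rfl
    rw [icpt, sub_mul, mul_right_comm (lam W z₁ w₁ z₁ w₁), ← hldef, hlN]
    simp only [den, num]
    linear_combination 3 * e₁
  have hxz₁ : x₁ = z₁ / w₁ := by rw [hz₁, hw₁]; field_simp
  have hxz₂ : x₂ = z₂ / w₂ := by rw [hz₂, hw₂]; field_simp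
  have hw₁0 : w₁ ≠ 0 := hw₁ ▸ one_div_ne_zero hy₁
  have hw₂0 : w₂ ≠ 0 := hw₂ ▸ one_div_ne_zero hy₂
  by_cases hv : icpt W z₁ w₁ z₂ w₂ = 0
  · -- inverse points
    rw [hv, add_zero] at hline₁ hline₂
    have hz10 : z₁ ≠ 0 := fun h => hw₁0 (by rw [hline₁, h, mul_zero])
    have hz20 : z₂ ≠ 0 := fun h => hw₂0 (by rw [hline₂, h, mul_zero])
    have hl0 : l ≠ 0 := fun h => hw₁0 (by rw [hline₁, h, zero_mul])
    have hx : x₁ = x₂ := by rw [hxz₁, hxz₂, hline₁, hline₂]; field_simp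
    have hy : y₁ = W.negY x₂ y₂ := by
      rcases WeierstrassCurve.Affine.Y_eq_of_X_eq hns₁.1 hns₂.1 hx with e | e
      · have hz : z₁ = z₂ := by rw [hz₁, hz₂, hx, e]
        have hw : w₁ = w₂ := by rw [hw₁, hw₂, e]
        have h0 := htan hz hw
        rw [hv, zero_mul, eq_comm, neg_eq_zero, mul_eq_zero] at h0
        replace h0 := h0.resolve_left hw₁0
        rw [hz₁, hw₁] at h0
        field_simp at h0
        rw [← hx, ← e, WeierstrassCurve.Affine.negY]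
        linear_combination h0
      · exact e
    obtain ⟨hne, h⟩ := origin hv e₁ hline₁ hz10
    have hz2 : z₂ = -z₁ / (1 + W.a₁ * z₁ + W.a₃ * w₁) := by
      have hy2 : y₂ = W.negY x₁ y₁ := by
        rw [hy, hx, WeierstrassCurve.Affine.negY_negY]
      rw [hz₁, hw₁] at hne
      rw [hz₂, hy2, ← hx, hz₁, hw₁, WeierstrassCurve.Affine.negY]
      have hd : -y₁ - W.a₁ * x₁ - W.a₃ ≠ 0 := by
        have := hy₂; rwa [hy2, WeierstrassCurve.Affine.negY] at this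
      rw [div_eq_div_iff hd hne]
      field_simp
      ring
    have hthird : thirdZ W z₁ w₁ z₂ w₂ = 0 := by
      rw [thirdZ, h, ← hz2, sub_self]
    refine Or.inl ⟨Point.add_of_Y_eq hx hy, ?_, ?_⟩
    · simp [addZ, hthird]
    · simp [addW, thirdW, hthird, hv]
  · -- a chord or tangent not through the origin
    set v := icpt W z₁ w₁ z₂ w₂ with hvdef
    have hL₁ : 1 = l * x₁ + v * y₁ := by
      rw [hz₁, hw₁] at hline₁; field_simp at hline₁; linear_combination hline₁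
    have hL₂ : 1 = l * x₂ + v * y₂ := by
      rw [hz₂, hw₂] at hline₂; field_simp at hline₂; linear_combination hline₂
    have hxy : ¬(x₁ = x₂ ∧ y₁ = W.negY x₂ y₂) := by
      rintro ⟨hx, hy⟩
      have e : y₁ = y₂ := mul_left_cancel₀ hv (by rw [hx] at hL₁; linear_combination hL₂ - hL₁)
      have h0 := htan (by rw [hz₁, hz₂, hx, e]) (by rw [hw₁, hw₂, e])
      have h2 : 2 + W.a₁ * z₁ + W.a₃ * w₁ = 0 := by
        rw [← e, ← hx, WeierstrassCurve.Affine.negY] at hy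
        rw [hz₁, hw₁]; field_simp; linear_combination hy
      rw [h2, mul_zero, neg_zero, mul_eq_zero] at h0
      exact h0.elim hv hD
    have hslope : W.slope x₁ x₂ y₁ y₂ = -l / v := by
      by_cases hx : x₁ = x₂
      · have e : y₁ = y₂ := mul_left_cancel₀ hv (by rw [hx] at hL₁; linear_combination hL₂ - hL₁)
        have hy : y₁ ≠ W.negY x₂ y₂ := fun h => hxy ⟨hx, h⟩
        rw [WeierstrassCurve.Affine.slope_of_Y_ne hx hy]
        have hd : y₁ - W.negY x₁ y₁ ≠ 0 := by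
          rw [sub_ne_zero]; rw [← hx, ← e] at hy; exact hy
        have h0 := htan (by rw [hz₁, hz₂, hx, e]) (by rw [hw₁, hw₂, e])
        have hN : num W z₁ w₁ z₂ w₂ =
            (3 * x₁ ^ 2 + 2 * W.a₂ * x₁ + W.a₄ - W.a₁ * y₁) / y₁ ^ 2 := by
          simp only [num, hz₁, hz₂, hw₁, ← hx, ← e]
          field_simp
          ring
        rw [← hlN] at hN
        generalize den W z₁ w₁ z₂ w₂ = D at hN h0
        rw [div_eq_div_iff hd hv]
        rw [WeierstrassCurve.Affine.negY] at hd ⊢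
        rw [hz₁, hw₁] at h0
        field_simp at hN h0
        linear_combination (-v) * hN + l * h0
      · rw [WeierstrassCurve.Affine.slope_of_X_ne hx, div_eq_div_iff (sub_ne_zero.2 hx) hv]
        linear_combination hL₂ - hL₁
    have hpoly := WeierstrassCurve.Affine.addPolynomial_slope hns₁.1 hns₂.1 hxy
    rw [WeierstrassCurve.Affine.addPolynomial_eq, neg_inj, Cubic.prod_X_sub_C_eq,
      Cubic.toPoly_injective] at hpoly
    simp only [Cubic.mk.injEq, true_and] at hpoly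
    obtain ⟨-, he₂, he₃⟩ := hpoly
    set m := W.slope x₁ x₂ y₁ y₂ with hmdef
    set x₃ := W.addX x₁ x₂ m with hx₃
    set c := y₁ - m * x₁ with hcdef
    have hc : c = 1 / v := by rw [hcdef, hslope]; field_simp; linear_combination -hL₁
    have hml : l = -m / c := by rw [hslope, hc]; field_simp
    have hvc : v = 1 / c := by rw [hc, one_div_one_div]
    have hy₂c : y₂ = m * x₂ + c := by
      rw [hslope, hc]; field_simp; linear_combination -hL₂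
    obtain ⟨hy₃, hz₃, hw₃⟩ := chord_core (a₁ := W.a₁) (a₂ := W.a₂) (a₃ := W.a₃) (a₄ := W.a₄)
      (a₆ := W.a₆) (m := m) (c := c) (x₁ := x₁) (x₂ := x₂) (x₃ := x₃) (y₁ := y₁) (y₂ := y₂)
      (y₃ := W.negAddY x₁ x₂ y₁ m)
      (by rw [hc]; exact one_div_ne_zero hv) (by rw [hcdef]; ring) hy₂c
      (by rw [WeierstrassCurve.Affine.negAddY, ← hx₃, hcdef]; ring)
      (by rw [hx₃, WeierstrassCurve.Affine.addX]; ring)
      (by rw [hcdef]; linear_combination -he₂) (by rw [hcdef]; linear_combination he₃)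
      hml hvc rfl hA hy₁ hy₂
    have hZ : thirdZ W z₁ w₁ z₂ w₂ = x₃ / W.negAddY x₁ x₂ y₁ m := by
      rw [← hz₃, thirdZ, hz₁, hz₂]
      simp only [Chord.sub, lead, ← hldef, ← hvdef, ← hz₁, ← hz₂]
    have hW : thirdW W z₁ w₁ z₂ w₂ = 1 / W.negAddY x₁ x₂ y₁ m := by
      rw [thirdW, ← hldef, ← hvdef, hZ, hw₃]
    have hY : W.addY x₁ x₂ y₁ m = -(W.negAddY x₁ x₂ y₁ m * negDen W z₁ w₁ z₂ w₂) := by
      rw [negDen, hZ, hW, WeierstrassCurve.Affine.addY, WeierstrassCurve.Affine.negY, ← hx₃]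
      field_simp
      ring
    have hY0 : W.addY x₁ x₂ y₁ m ≠ 0 := by
      rw [hY]; exact neg_ne_zero.2 (mul_ne_zero hy₃ hE)
    refine Or.inr ⟨_, _, WeierstrassCurve.Affine.nonsingular_add hns₁ hns₂ hxy,
      Point.add_some hxy, hY0, ?_, ?_⟩
    · rw [← hmdef, ← hx₃, hY, addZ, hZ]
      field_simp
    · rw [← hmdef, hY, addW, hW]
      field_simp

end Fermat.Agent.EC.Flat
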