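import Fermat.Agent.EC.Flat.Generators
import Fermat.Agent.EC.Flat.ChordFormulas
import Fermat.Agent.EC.Flat.KernelChord
import Fermat.Agent.FiniteFlat.LocalRing

/-!
# The model of `E[N]` is closed under addition

Locally at each place and each pair of points, the sum of two points is given by integral
formulas in integral coordinates.
-/

set_option autoImplicit false

open WeierstrassCurve.Affine (Point)
open scoped WeierstrassCurve.Affine
open Polynomial IsLocalRing Fermat.Agent.FiniteFlat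

noncomputable section

namespace Fermat.Agent.EC.Flat

local notation "Qbar" => AlgebraicClosure ℚ

variable {W : WeierstrassCurve ℤ} {N p : ℕ} {F : ℤ[X]} {X : Type}
  {T : Subalgebra (GaloisRep.ratLocalizedAt p) (X → Qbar)} {A : ValuationSubring Qbar} {x₀ : X}

local notation "O" => locRing T A x₀
local notation "res" => locRes T A x₀

/-- Near `x₀` the point is affine with the given coordinates. -/
def AffineAt (T : Subalgebra (GaloisRep.ratLocalizedAt p) (X → Qbar)) (A : ValuationSubring Qbar)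
    (x₀ : X) (P : X → PtQbar W) (u v : locRing T A x₀) : Prop :=
  Nearby T A x₀ fun x => ∃ h, P x = Point.some ((u : X → Qbar) x) ((v : X → Qbar) x) h

/-- Near `x₀` the point has coordinates `a`, `b` at infinity, vanishing at `x₀`. -/
def OriginAt (T : Subalgebra (GaloisRep.ratLocalizedAt p) (X → Qbar)) (A : ValuationSubring Qbar)
    (x₀ : X) (P : X → PtQbar W) (a b : locRing T A x₀) : Prop :=
  locRes T A x₀ a = 0 ∧ locRes T A x₀ b = 0 ∧
    Nearby T A x₀ fun x => HasAB (W := curveQbar W) (P x) ((a : X → Qbar) x) ((b : X → Qbar) x)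

section Coordinates

/-- Coordinates near a point, pulled back along a map to `E[N]`. -/
theorem exists_coords (hF : Avoids W N p F)
    (hA : ∀ r : GaloisRep.ratLocalizedAt p, algebraMap _ Qbar r ∈ A) (π : X → TorQbar W N)
    (hπ : ∀ f ∈ coordRing W N p F, f ∘ π ∈ T) :
    (∃ u v : O, AffineAt T A x₀ (fun x => (π x : PtQbar W)) u v) ∨
      ∃ a b : O, OriginAt T A x₀ (fun x => (π x : PtQbar W)) a b := by
  have h3 := hF.three_le
  obtain ⟨P, hP⟩ : {P : TorQbar W N // π x₀ = P} := ⟨_, rfl⟩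
  by_cases hfar : (P : PtQbar W) = 0 ∨ xOf W (P : PtQbar W) ∉ A
  · right
    obtain ⟨hAB, ha, hb⟩ := valuation_coords_lt_one A hfar
    have hd : A.valuation (phi W N F F.natDegree P) = 1 := by
      simp only [phi]
      rw [phiPt_of_hasAB hF.monic hAB le_rfl, Nat.sub_self, pow_zero, map_div₀,
        valuation_aeval_reverse A hF.monic hb, map_one, div_one]
    have hmemA : LocMem (coordRing W N p F) A P fun m => aOf W (m : PtQbar W) := by
      refine ⟨phi W N F F.natDegree, phi_mem le_rfl, hd, ?_⟩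
      convert psi_mem (p := p) (i := F.natDegree - 2) (W := W) (N := N) (F := F) (by omega) using 1
      funext ⟨Q, hQ⟩
      obtain _ | ⟨x, y, h⟩ := Q
      · simp [phi, psi, phiPt, psiPt, aOf]
      · simp only [Pi.mul_apply, phi, psi, phiPt, psiPt, aOf]
        obtain ⟨k, hk⟩ := Nat.exists_eq_add_of_le (show 2 + 1 ≤ F.natDegree by omega)
        rw [hk, show 2 + 1 + k - 2 = 1 + k by omega]
        by_cases hx : x = 0
        · simp [hx]
        · field_simp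
          ring
    have hmemB : LocMem (coordRing W N p F) A P fun m => bOf W (m : PtQbar W) := by
      refine ⟨phi W N F F.natDegree, phi_mem le_rfl, hd, ?_⟩
      convert phi_mem (p := p) (i := F.natDegree - 1) (W := W) (N := N) (F := F) (by omega) using 1
      funext ⟨Q, hQ⟩
      obtain _ | ⟨x, y, h⟩ := Q
      · simp [phi, phiPt, bOf, show F.natDegree - 1 ≠ F.natDegree by omega]
      · simp only [Pi.mul_apply, phi, phiPt, bOf]
        obtain ⟨k, hk⟩ := Nat.exists_eq_add_of_le (show 1 + 1 ≤ F.natDegree by omega)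
        rw [hk, show 1 + 1 + k - 1 = 1 + k by omega]
        by_cases hx : x = 0
        · simp [hx]
        · field_simp
          ring
    subst hP
    let a : O := ⟨_, hmemA.comp π hπ, (A.valuation_le_one_iff _).1 ha.le⟩
    let b : O := ⟨_, hmemB.comp π hπ, (A.valuation_le_one_iff _).1 hb.le⟩
    refine ⟨a, b, (locRes_eq_zero_iff a).2 ha, (locRes_eq_zero_iff b).2 hb, ?_⟩
    have hnb : Nearby (coordRing W N p F) A (π x₀) fun m =>
        HasAB (W := curveQbar W) (m : PtQbar W) (aOf W (m : PtQbar W)) (bOf W (m : PtQbar W)) := by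
      refine ⟨phi W N F F.natDegree, phi_mem le_rfl, hd, fun ⟨Q, hQ⟩ h => ?_⟩
      obtain _ | ⟨x, y, hns⟩ := Q
      · exact Or.inl ⟨rfl, rfl, rfl⟩
      · refine Or.inr ⟨x, y, hns, rfl, fun hx => h ?_, rfl, rfl⟩
        simp [phi, phiPt, hx, show F.natDegree ≠ 0 by omega]
    exact hnb.comp π hπ
  · left
    simp only [not_or, not_not] at hfar
    obtain ⟨hP0, hx⟩ := hfar
    have hd : A.valuation (phi W N F 0 P) = 1 := by
      obtain ⟨_ | ⟨x, y, h⟩, hQ⟩ := P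
      · exact absurd rfl hP0
      · simp only [phi, phiPt, pow_zero]
        rw [map_div₀, map_one, hF.valuation_eq_one A hA x y h hQ hx, div_one]
    have hy : yOf W (P : PtQbar W) ∈ A := by
      obtain ⟨_ | ⟨x, y, h⟩, hQ⟩ := P
      · exact absurd rfl hP0
      · exact (qbarModel W A).mem_y_of_mem_x h.1 hx
    have hmemX : LocMem (coordRing W N p F) A P fun m => xOf W (m : PtQbar W) := by
      refine ⟨phi W N F 0, phi_mem (Nat.zero_le _), hd, ?_⟩
      convert phi_mem (p := p) (i := 1) (W := W) (N := N) (F := F) (by omega) using 1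
      funext ⟨Q, hQ⟩
      obtain _ | ⟨x, y, h⟩ := Q
      · simp [phi, phiPt, xOf, show 1 ≠ F.natDegree by omega]
      · simp only [Pi.mul_apply, phi, phiPt, xOf]
        ring
    have hmemY : LocMem (coordRing W N p F) A P fun m => yOf W (m : PtQbar W) := by
      refine ⟨phi W N F 0, phi_mem (Nat.zero_le _), hd, ?_⟩
      convert psi_mem (p := p) (i := 0) (W := W) (N := N) (F := F) (by omega) using 1
      funext ⟨Q, hQ⟩
      obtain _ | ⟨x, y, h⟩ := Q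
      · simp [phi, psi, phiPt, psiPt, yOf]
      · simp only [Pi.mul_apply, phi, psi, phiPt, psiPt, yOf]
        ring
    subst hP
    refine ⟨⟨_, hmemX.comp π hπ, hx⟩, ⟨_, hmemY.comp π hπ, hy⟩, ?_⟩
    have hnb : Nearby (coordRing W N p F) A (π x₀) fun m =>
        ∃ h, (m : PtQbar W) = Point.some (xOf W (m : PtQbar W)) (yOf W (m : PtQbar W)) h := by
      refine ⟨phi W N F 0, phi_mem (Nat.zero_le _), hd, fun ⟨Q, hQ⟩ h => ?_⟩
      obtain _ | ⟨x, y, hns⟩ := Q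
      · exact absurd (by simp [phi, phiPt, show 0 ≠ F.natDegree by omega]) h
      · exact ⟨hns, rfl⟩
    exact hnb.comp π hπ

end Coordinates

section Formulas

/-- Addition through a slope valid also when the points coincide. -/
theorem some_add_some_of_slope {L : Type} [Field L] [DecidableEq L]
    {V : WeierstrassCurve.Affine L} {x₁ y₁ x₂ y₂ ℓ : L} (h₁ : V.Nonsingular x₁ y₁)
    (h₂ : V.Nonsingular x₂ y₂)
    (hℓ : (x₁ ≠ x₂ ∧ ℓ = (y₁ - y₂) / (x₁ - x₂)) ∨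
      (y₁ + y₂ + V.a₁ * x₂ + V.a₃ ≠ 0 ∧
        ℓ = (x₁ ^ 2 + x₁ * x₂ + x₂ ^ 2 + V.a₂ * (x₁ + x₂) + V.a₄ - V.a₁ * y₁) /
          (y₁ + y₂ + V.a₁ * x₂ + V.a₃))) :
    ∃ h, Point.some x₁ y₁ h₁ + Point.some x₂ y₂ h₂ = Point.some
      (ℓ ^ 2 + V.a₁ * ℓ - V.a₂ - x₁ - x₂)
      (-(ℓ * (ℓ ^ 2 + V.a₁ * ℓ - V.a₂ - x₁ - x₂ - x₁) + y₁)
        - V.a₁ * (ℓ ^ 2 + V.a₁ * ℓ - V.a₂ - x₁ - x₂) - V.a₃) h := by
  have hxy : ¬(x₁ = x₂ ∧ y₁ = V.negY x₂ y₂) := by
    rintro ⟨hx, hy⟩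
    rcases hℓ with ⟨hne, -⟩ | ⟨hs, -⟩
    · exact hne hx
    · refine hs ?_
      rw [hy, WeierstrassCurve.Affine.negY]
      ring
  have hslope : V.slope x₁ x₂ y₁ y₂ = ℓ := by
    rcases hℓ with ⟨hne, rfl⟩ | ⟨hs, rfl⟩
    · exact WeierstrassCurve.Affine.slope_of_X_ne hne
    · have hid := Y_sub_mul_eq h₁.1 h₂.1
      by_cases hx : x₁ = x₂
      · subst hx
        rw [sub_self, zero_mul, mul_eq_zero, or_iff_left hs, sub_eq_zero] at hid
        subst hid
        have hy : y₁ ≠ V.negY x₁ y₁ := fun e => hxy ⟨rfl, e⟩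
        rw [WeierstrassCurve.Affine.slope_of_Y_ne rfl hy, WeierstrassCurve.Affine.negY]
        congr 1 <;> ring
      · rw [WeierstrassCurve.Affine.slope_of_X_ne hx, div_eq_div_iff (sub_ne_zero.2 hx) hs]
        linear_combination hid
  subst hslope
  exact ⟨_, Point.add_some hxy⟩

end Formulas

section Sum

variable {P Q : X → PtQbar W}

theorem mul_res_intCast (n : ℤ) : res ((n : O)) = (n : ResidueField A) := map_intCast _ n

theorem affine_of_slope {u₁ v₁ u₂ v₂ : O} (hP : AffineAt T A x₀ P u₁ v₁)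
    (hQ : AffineAt T A x₀ Q u₂ v₂) (l : O)
    (hl : Nearby T A x₀ fun x =>
      ((u₁ : X → Qbar) x ≠ (u₂ : X → Qbar) x ∧ (l : X → Qbar) x =
        ((v₁ : X → Qbar) x - (v₂ : X → Qbar) x) / ((u₁ : X → Qbar) x - (u₂ : X → Qbar) x)) ∨
      ((v₁ : X → Qbar) x + (v₂ : X → Qbar) x + (W.a₁ : Qbar) * (u₂ : X → Qbar) x + (W.a₃ : Qbar) ≠ 0
        ∧ (l : X → Qbar) x = ((u₁ : X → Qbar) x ^ 2 + (u₁ : X → Qbar) x * (u₂ : X → Qbar) x +
          (u₂ : X → Qbar) x ^ 2 + (W.a₂ : Qbar) * ((u₁ : X → Qbar) x + (u₂ : X → Qbar) x) +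
          (W.a₄ : Qbar) - (W.a₁ : Qbar) * (v₁ : X → Qbar) x) /
          ((v₁ : X → Qbar) x + (v₂ : X → Qbar) x + (W.a₁ : Qbar) * (u₂ : X → Qbar) x +
            (W.a₃ : Qbar)))) :
    ∃ u v : O, AffineAt T A x₀ (fun x => P x + Q x) u v := by
  obtain ⟨e1, e2, e3, e4, -⟩ := curveQbar_coeffs (W := W)
  let u₃ : O := l ^ 2 + (W.a₁ : O) * l - (W.a₂ : O) - u₁ - u₂
  refine ⟨u₃, -(l * (u₃ - u₁) + v₁) - (W.a₁ : O) * u₃ - (W.a₃ : O),
    ((hP.and hQ).and hl).mono ?_⟩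
  rintro x ⟨⟨⟨h₁, eP⟩, ⟨h₂, eQ⟩⟩, hlx⟩
  obtain ⟨h₃, e⟩ := some_add_some_of_slope (V := curveQbar W) h₁ h₂ (by rw [e1, e2, e3, e4]; exact hlx)
  simp only [e1, e2, e3] at h₃ e
  refine ⟨by simpa [u₃] using h₃, ?_⟩
  simp only [eP, eQ]
  simpa [u₃] using e

@[simp]
theorem coe_two_apply (x : X) : (((2 : O)) : X → Qbar) x = 2 := rfl

@[simp]
theorem coe_three_apply (x : X) : (((3 : O)) : X → Qbar) x = 3 := rfl

/-- Two points with integral coordinates. -/
theorem sum_affine_affine (hΔ : (specialFibre W A).Δ ≠ 0) {u₁ v₁ u₂ v₂ : O}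
    (hP : AffineAt T A x₀ P u₁ v₁) (hQ : AffineAt T A x₀ Q u₂ v₂) :
    (∃ u v : O, AffineAt T A x₀ (fun x => P x + Q x) u v) ∨
      ∃ a b : O, OriginAt T A x₀ (fun x => P x + Q x) a b := by
  obtain ⟨e1, e2, e3, e4, -⟩ := curveQbar_coeffs (W := W)
  let dx : O := u₁ - u₂
  by_cases hdx : res dx = 0
  swap
  · refine Or.inl (affine_of_slope hP hQ ((v₁ - v₂) * locInv dx hdx)
      ((nearby_ne_zero_of_locRes hdx).mono fun x hx => Or.inl ⟨?_, ?_⟩))
    · simpa [dx, sub_ne_zero] using hx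
    · simp [dx, div_eq_mul_inv]
  let s : O := v₁ + v₂ + (W.a₁ : O) * u₂ + (W.a₃ : O)
  let num : O := u₁ ^ 2 + u₁ * u₂ + u₂ ^ 2 + (W.a₂ : O) * (u₁ + u₂) + (W.a₄ : O)
    - (W.a₁ : O) * v₁
  by_cases hs : res s = 0
  swap
  · refine Or.inl (affine_of_slope hP hQ (num * locInv s hs)
      ((nearby_ne_zero_of_locRes hs).mono fun x hx => Or.inr ⟨?_, ?_⟩))
    · simpa [s] using hx
    · simp [s, num, div_eq_mul_inv]
  right
  let dy : O := v₁ - v₂
  have hu : res u₁ = res u₂ := by simpa [dx, sub_eq_zero] using hdx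
  -- the inverse slope
  obtain ⟨μ, hμ0, hμ⟩ : ∃ μ : O, res μ = 0 ∧ Nearby T A x₀ fun x =>
      ((num : X → Qbar) x ≠ 0 ∧ (μ : X → Qbar) x = (s : X → Qbar) x / (num : X → Qbar) x) ∨
      ((v₁ : X → Qbar) x ≠ (v₂ : X → Qbar) x ∧
        (μ : X → Qbar) x = (dx : X → Qbar) x / (dy : X → Qbar) x) := by
    by_cases hdy : res dy = 0
    swap
    · refine ⟨dx * locInv dy hdy, by simp [hdx], (nearby_ne_zero_of_locRes hdy).mono
        fun x hx => Or.inr ⟨?_, by simp [div_eq_mul_inv]⟩⟩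
      simpa [dy, sub_ne_zero] using hx
    have hv : res v₁ = res v₂ := by simpa [dy, sub_eq_zero] using hdy
    have hnum : res num ≠ 0 := by
      obtain ⟨h₁, -⟩ := hP.self
      have hns := nonsingular_residue W A hΔ h₁ u₁.2.2 v₁.2.2
      rw [← locRes_apply, ← locRes_apply, WeierstrassCurve.Affine.nonsingular_iff] at hns
      simp only [s, map_add, map_mul, mul_res_intCast, ← hu, ← hv] at hs
      simp only [WeierstrassCurve.map_a₁, WeierstrassCurve.map_a₂, WeierstrassCurve.map_a₃,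
        WeierstrassCurve.map_a₄, eq_intCast] at hns
      intro h0
      simp only [num, map_add, map_sub, map_mul, map_pow, mul_res_intCast, ← hu] at h0
      rcases hns.2 with hne | hne
      · exact hne (by linear_combination -h0)
      · exact hne (by linear_combination hs)
    refine ⟨s * locInv num hnum, by simp [hs], (nearby_ne_zero_of_locRes hnum).mono
      fun x hx => Or.inl ⟨hx, by simp [div_eq_mul_inv]⟩⟩
  let dn : O := 1 + (W.a₁ : O) * μ - ((W.a₂ : O) + u₁ + u₂) * μ ^ 2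
  have hdn : res dn = 1 := by simp [dn, hμ0]
  let i : O := locInv dn (by rw [hdn]; exact one_ne_zero)
  let b : O := μ ^ 2 * i
  refine ⟨-μ * i + u₁ * μ ^ 3 * i ^ 2 - v₁ * b ^ 2 - (W.a₁ : O) * b - (W.a₃ : O) * b ^ 2, b,
    by simp [b, hμ0], by simp [b, hμ0], ?_⟩
  refine (((hP.and hQ).and hμ).and
    (nearby_ne_zero_of_locRes (f := dn) (by rw [hdn]; exact one_ne_zero))).mono ?_
  rintro x ⟨⟨⟨⟨h₁, eP⟩, ⟨h₂, eQ⟩⟩, hμx⟩, hdx'⟩
  have key := hasAB_add_of_invSlope (W := curveQbar W) h₁ h₂ (μ := (μ : X → Qbar) x) (by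
    rw [e1, e2, e3, e4]
    rcases hμx with ⟨hn, e⟩ | ⟨hn, e⟩
    · exact Or.inl ⟨by simpa [num] using hn, by simpa [num, s] using e⟩
    · exact Or.inr ⟨hn, by simpa [dx, dy] using e⟩) (by rw [e1, e2]; simpa [dn] using hdx')
  simp only [eP, eQ]
  convert key using 1 <;> simp [b, i, dn, e1, e2, e3] <;> ring

/-- An integral point plus a point near the origin. -/
theorem sum_affine_origin {u₁ v₁ a b : O} (hP : AffineAt T A x₀ P u₁ v₁)
    (hQ : OriginAt T A x₀ Q a b) :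
    ∃ u v : O, AffineAt T A x₀ (fun x => P x + Q x) u v := by
  obtain ⟨e1, e2, e3, e4, e6⟩ := curveQbar_coeffs (W := W)
  obtain ⟨ha, hb, hQ⟩ := hQ
  let q : O := 1 + (W.a₂ : O) * b + (W.a₄ : O) * b ^ 2 + (W.a₆ : O) * b ^ 3
    - (W.a₁ : O) * a - (W.a₃ : O) * a * b
  have hq : res q ≠ 0 := by simp [q, ha, hb]
  let u : O := locInv q hq
  let z : O := a * u
  let D : O := u - u₁ * z ^ 2
  have hD : res D ≠ 0 := by simp [D, z, u, q, ha, hb]
  let iD : O := locInv D hD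
  let Nn : O := u - v₁ * z ^ 3
  let X₃ : O := (W.a₂ : O) * u ^ 2 + (W.a₄ : O) * u * z ^ 2 + (W.a₆ : O) * z ^ 4
    - (W.a₃ : O) * u * z - 2 * u * v₁ * z
    + v₁ ^ 2 * z ^ 4 + 2 * u ^ 2 * u₁ - u * u₁ ^ 2 * z ^ 2
    + (W.a₁ : O) * (-u₁ * u * z - v₁ * u * z ^ 2 + u₁ * v₁ * z ^ 4)
    - ((W.a₂ : O) + u₁) * D ^ 2
  let G : O := (W.a₄ : O) * u * z + (W.a₆ : O) * z ^ 3 - (W.a₃ : O) * u - 2 * u * v₁
    + v₁ ^ 2 * z ^ 3 - u * u₁ ^ 2 * z
    + (W.a₁ : O) * (-u₁ * u - v₁ * u * z + u₁ * v₁ * z ^ 3)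
    - ((W.a₂ : O) + 2 * u₁) * (-2 * u * u₁ * z + u₁ ^ 2 * z ^ 3)
  refine ⟨X₃ * iD ^ 2, -(Nn * G * iD ^ 3 + v₁) - (W.a₁ : O) * (X₃ * iD ^ 2) - (W.a₃ : O), ?_⟩
  refine (((hP.and hQ).and (nearby_ne_zero_of_locRes hq)).and
    (nearby_ne_zero_of_locRes hD)).mono ?_
  rintro x ⟨⟨⟨⟨h₁, eP⟩, hAB⟩, hqx⟩, hDx⟩
  have hU : unitAB (curveQbar W) ((a : X → Qbar) x) ((b : X → Qbar) x) = (q : X → Qbar) x := by
    simp [q, unitAB, denAB, e1, e2, e3, e4, e6]
  obtain ⟨h₃, e⟩ := some_add_of_hasAB h₁ hAB (by rw [hU]; exact hqx)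
    (by rw [hU]; simpa [chordD, D, z, u] using hDx)
  simp only [hU] at h₃ e
  have hX : ((X₃ * iD ^ 2 : O) : X → Qbar) x =
      chordX (curveQbar W) ((u₁ : X → Qbar) x) ((v₁ : X → Qbar) x) ((q : X → Qbar) x)⁻¹
        ((a : X → Qbar) x * ((q : X → Qbar) x)⁻¹) /
      chordD ((u₁ : X → Qbar) x) ((q : X → Qbar) x)⁻¹
        ((a : X → Qbar) x * ((q : X → Qbar) x)⁻¹) ^ 2 := by
    simp [X₃, iD, D, z, u, chordX, chordD, e1, e2, e3, e4, e6, div_eq_mul_inv]
  have hY : ((-(Nn * G * iD ^ 3 + v₁) - (W.a₁ : O) * (X₃ * iD ^ 2) - (W.a₃ : O) : O) :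
      X → Qbar) x =
      chordY (curveQbar W) ((u₁ : X → Qbar) x) ((v₁ : X → Qbar) x) ((q : X → Qbar) x)⁻¹
        ((a : X → Qbar) x * ((q : X → Qbar) x)⁻¹) := by
    simp [X₃, G, Nn, iD, D, z, u, chordY, chordX, chordG, chordN, chordD, e1, e2, e3, e4, e6,
      div_eq_mul_inv]
  refine ⟨?_, ?_⟩
  · rw [hX, hY]; exact h₃
  · simp only [eP]; rw [e]; congr 1
    · exact hX.symm
    · exact hY.symm

/-- Two points near the origin. -/
theorem sum_origin_origin {a₁ b₁ a₂ b₂ : O} (hP : OriginAt T A x₀ P a₁ b₁)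
    (hQ : OriginAt T A x₀ Q a₂ b₂) :
    ∃ a b : O, OriginAt T A x₀ (fun x => P x + Q x) a b := by
  obtain ⟨e1, e2, e3, e4, e6⟩ := curveQbar_coeffs (W := W)
  -- pass to the coordinates `z = x / y`, `w = 1 / y`
  have conv : ∀ (R : X → PtQbar W) (a b : O), OriginAt T A x₀ R a b → ∃ z w : O,
      res z = 0 ∧ res w = 0 ∧ Nearby T A x₀ fun x =>
        HasZW (curveQbar W) (R x) ((z : X → Qbar) x) ((w : X → Qbar) x) := by
    rintro R a b ⟨ha, hb, hR⟩
    let d : O := 1 + (W.a₂ : O) * b + (W.a₄ : O) * b ^ 2 + (W.a₆ : O) * b ^ 3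
    have hd : res d ≠ 0 := by simp [d, hb]
    let z : O := (a + (W.a₁ : O) * b + (W.a₃ : O) * b ^ 2) * locInv d hd
    refine ⟨z, z * b, by simp [z, ha, hb], by simp [hb],
      (hR.and (nearby_ne_zero_of_locRes hd)).mono ?_⟩
    rintro x ⟨hAB, hdx⟩
    rcases hAB with ⟨h0, ha0, hb0⟩ | ⟨X', Y', h, hR', hX', haX, hbX⟩
    · exact Or.inl ⟨h0, by simp [z, ha0, hb0], by simp [z, ha0, hb0]⟩
    · have hdv : (d : X → Qbar) x = 1 + (W.a₂ : Qbar) * (b : X → Qbar) x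
          + (W.a₄ : Qbar) * (b : X → Qbar) x ^ 2 + (W.a₆ : Qbar) * (b : X → Qbar) x ^ 3 := by
        simp [d]
      have he := (WeierstrassCurve.Affine.equation_iff _ _).1 h.1
      rw [e1, e2, e3, e4, e6] at he
      have hd3 : (d : X → Qbar) x = Y' * (Y' + (W.a₁ : Qbar) * X' + (W.a₃ : Qbar)) / X' ^ 3 := by
        rw [hdv, hbX]
        field_simp
        linear_combination -he
      rw [hd3] at hdx
      simp only [ne_eq, div_eq_zero_iff, mul_eq_zero, not_or] at hdx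
      obtain ⟨⟨hY', hY''⟩, -⟩ := hdx
      have hz : (z : X → Qbar) x = X' / Y' := by
        simp only [z, Subring.coe_mul, Subring.coe_add, Subring.coe_pow, coe_intCast_apply,
          coe_locInv, Pi.mul_apply, Pi.add_apply, Pi.inv_apply, Pi.pow_apply]
        rw [hd3, haX, hbX]
        field_simp
        rw [div_self (fun h0 => hY'' (by linear_combination h0))]
      refine Or.inr ⟨X', Y', h, hR', hY', hz, ?_⟩
      rw [Subring.coe_mul, Pi.mul_apply, hz, hbX]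
      field_simp
  obtain ⟨z₁, w₁, hz₁, hw₁, hP'⟩ := conv _ _ _ hP
  obtain ⟨z₂, w₂, hz₂, hw₂, hQ'⟩ := conv _ _ _ hQ
  let Dn : O := 1 + (W.a₁ : O) * z₂ + (W.a₃ : O) * (w₁ + w₂) - (W.a₂ : O) * z₂ ^ 2 -
    (W.a₄ : O) * z₂ * (w₁ + w₂) - (W.a₆ : O) * (w₁ ^ 2 + w₁ * w₂ + w₂ ^ 2)
  have hDn : res Dn ≠ 0 := by simp [Dn, hz₁, hz₂, hw₁, hw₂]
  let l : O := (z₁ ^ 2 + z₁ * z₂ + z₂ ^ 2 - (W.a₁ : O) * w₁ + (W.a₂ : O) * w₁ * (z₁ + z₂) +
    (W.a₄ : O) * w₁ ^ 2) * locInv Dn hDn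
  have hl : res l = 0 := by simp [l, hz₁, hz₂, hw₁, hw₂]
  let ν : O := w₁ - l * z₁
  let Al : O := 1 + (W.a₂ : O) * l + (W.a₄ : O) * l ^ 2 + (W.a₆ : O) * l ^ 3
  have hAl : res Al ≠ 0 := by simp [Al, hl]
  let z' : O := -((W.a₂ : O) * ν + 2 * (W.a₄ : O) * l * ν + 3 * (W.a₆ : O) * l ^ 2 * ν -
    (W.a₁ : O) * l - (W.a₃ : O) * l ^ 2) * locInv Al hAl - z₁ - z₂
  have hz' : res z' = 0 := by simp [z', ν, hl, hz₁, hz₂, hw₁]
  let w' : O := l * z' + ν
  have hw' : res w' = 0 := by simp [w', ν, hl, hz', hw₁]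
  let E : O := 1 + (W.a₁ : O) * z' + (W.a₃ : O) * w'
  have hE : res E ≠ 0 := by simp [E, hz', hw']
  let z : O := -z' * locInv E hE
  let w : O := -w' * locInv E hE
  have hzres : res z = 0 := by simp [z, hz']
  have hwres : res w = 0 := by simp [w, hw']
  let K : O := 1 + (W.a₁ : O) * z + (W.a₃ : O) * w - (W.a₂ : O) * z ^ 2 -
    (W.a₄ : O) * z * w - (W.a₆ : O) * w ^ 2
  have hK : res K ≠ 0 := by simp [K, hzres, hwres]
  refine ⟨z * locInv K hK, z ^ 2 * locInv K hK, by simp [hzres], by simp [hzres], ?_⟩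
  refine (((((hP'.and hQ').and (nearby_ne_zero_of_locRes hDn)).and
    (nearby_ne_zero_of_locRes hAl)).and (nearby_ne_zero_of_locRes hE)).and
    (nearby_ne_zero_of_locRes hK)).mono ?_
  rintro x ⟨⟨⟨⟨⟨h₁, h₂⟩, hDx⟩, hAx⟩, hEx⟩, hKx⟩
  have eD : Chord.den (curveQbar W) ((z₁ : X → Qbar) x) ((w₁ : X → Qbar) x) ((z₂ : X → Qbar) x)
      ((w₂ : X → Qbar) x) = (Dn : X → Qbar) x := by
    simp [Chord.den, Dn, e1, e2, e3, e4, e6]
  have el : Chord.lam (curveQbar W) ((z₁ : X → Qbar) x) ((w₁ : X → Qbar) x) ((z₂ : X → Qbar) x)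
      ((w₂ : X → Qbar) x) = (l : X → Qbar) x := by
    simp [Chord.lam, Chord.num, eD, l, e1, e2, e4, div_eq_mul_inv]
  have ev : Chord.icpt (curveQbar W) ((z₁ : X → Qbar) x) ((w₁ : X → Qbar) x) ((z₂ : X → Qbar) x)
      ((w₂ : X → Qbar) x) = (ν : X → Qbar) x := by
    simp [Chord.icpt, el, ν]
  have eA : Chord.lead (curveQbar W) ((z₁ : X → Qbar) x) ((w₁ : X → Qbar) x) ((z₂ : X → Qbar) x)
      ((w₂ : X → Qbar) x) = (Al : X → Qbar) x := by
    simp [Chord.lead, el, Al, e2, e4, e6]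
  have ez' : Chord.thirdZ (curveQbar W) ((z₁ : X → Qbar) x) ((w₁ : X → Qbar) x)
      ((z₂ : X → Qbar) x) ((w₂ : X → Qbar) x) = (z' : X → Qbar) x := by
    simp [Chord.thirdZ, Chord.sub, eA, el, ev, z', e1, e2, e3, e4, e6, div_eq_mul_inv]
  have ew' : Chord.thirdW (curveQbar W) ((z₁ : X → Qbar) x) ((w₁ : X → Qbar) x)
      ((z₂ : X → Qbar) x) ((w₂ : X → Qbar) x) = (w' : X → Qbar) x := by
    simp [Chord.thirdW, el, ev, ez', w']
  have eE : Chord.negDen (curveQbar W) ((z₁ : X → Qbar) x) ((w₁ : X → Qbar) x)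
      ((z₂ : X → Qbar) x) ((w₂ : X → Qbar) x) = (E : X → Qbar) x := by
    simp [Chord.negDen, ez', ew', E, e1, e3]
  have key := hasZW_add h₁ h₂ (by rw [eD]; exact hDx) (by rw [eA]; exact hAx)
    (by rw [eE]; exact hEx)
  rw [show Chord.addZ (curveQbar W) ((z₁ : X → Qbar) x) ((w₁ : X → Qbar) x)
      ((z₂ : X → Qbar) x) ((w₂ : X → Qbar) x) = (z : X → Qbar) x by
    simp [Chord.addZ, ez', eE, z, div_eq_mul_inv],
    show Chord.addW (curveQbar W) ((z₁ : X → Qbar) x) ((w₁ : X → Qbar) x)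
      ((z₂ : X → Qbar) x) ((w₂ : X → Qbar) x) = (w : X → Qbar) x by
    simp [Chord.addW, ew', eE, w, div_eq_mul_inv]] at key
  -- back to `a = y / x²`, `b = 1 / x`
  rcases key with ⟨h0, hz0, -⟩ | ⟨X', Y', h, hS, hY', hzX, hwX⟩
  · exact Or.inl ⟨h0, by simp [hz0], by simp [hz0]⟩
  · have he := (WeierstrassCurve.Affine.equation_iff _ _).1 h.1
    rw [e1, e2, e3, e4, e6] at he
    have hKv : (K : X → Qbar) x = X' ^ 3 / Y' ^ 2 := by
      simp only [K, AddSubgroupClass.coe_sub, Subring.coe_add, Subring.coe_one, Subring.coe_mul,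
        Subring.coe_pow, coe_intCast_apply, Pi.sub_apply, Pi.add_apply, Pi.one_apply,
        Pi.mul_apply, Pi.pow_apply]
      rw [hzX, hwX]
      field_simp
      linear_combination he
    have hX' : X' ≠ 0 := by
      intro hX0
      exact hKx (by rw [hKv, hX0]; simp)
    refine Or.inr ⟨X', Y', h, hS, hX', ?_, ?_⟩
    · simp only [Subring.coe_mul, coe_locInv, Pi.mul_apply, Pi.inv_apply, hzX, hKv]
      field_simp
    · simp only [Subring.coe_mul, Subring.coe_pow, coe_locInv, Pi.mul_apply, Pi.inv_apply,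
        Pi.pow_apply, hzX, hKv]
      field_simp

end Sum

end Fermat.Agent.EC.Flat
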