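import Fermat.Agent.EC.Flat.Generators
import Fermat.Agent.EC.Torsion.Finite
import Fermat.Agent.EC.DivPoly.MulFormula
import Mathlib.FieldTheory.Finite.GaloisField
import Mathlib.FieldTheory.PrimitiveElement

/-!
# A polynomial avoiding the `x`-coordinates of `E[N]`
-/

set_option autoImplicit false

open Polynomial
open WeierstrassCurve.Affine (Point)
open scoped WeierstrassCurve.Affine

noncomputable section

namespace Fermat.Agent.EC.Flat

local notation "Qbar" => AlgebraicClosure ℚ

theorem exists_monic_irreducible_natDegree (p : ℕ) [Fact p.Prime] {d : ℕ} (hd : d ≠ 0) :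
    ∃ g : (ZMod p)[X], g.Monic ∧ Irreducible g ∧ g.natDegree = d := by
  obtain ⟨α, hα⟩ := Field.exists_primitive_element (ZMod p) (GaloisField p d)
  have hint : IsIntegral (ZMod p) α := .of_finite (ZMod p) α
  refine ⟨minpoly (ZMod p) α, minpoly.monic hint, minpoly.irreducible hint, ?_⟩
  rw [← IntermediateField.adjoin.finrank hint, hα, IntermediateField.finrank_top',
    GaloisField.finrank p hd]

theorem not_isIntegral_inv_natCast {K : Type*} [Field K] [CharZero K] {p : ℕ} (hp : p.Prime) :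
    ¬ IsIntegral ℤ ((p : K)⁻¹) := by
  intro h
  have : (p : K)⁻¹ = algebraMap ℚ K ((p : ℚ)⁻¹) := by simp
  rw [this, isIntegral_algebraMap_iff (algebraMap ℚ K).injective] at h
  obtain ⟨m, hm⟩ := IsIntegrallyClosed.isIntegral_iff.1 h
  rw [eq_intCast] at hm
  have hp0 : (p : ℚ) ≠ 0 := by exact_mod_cast hp.ne_zero
  have h1 : ((p * m : ℤ) : ℚ) = ((1 : ℤ) : ℚ) := by push_cast; rw [hm]; field_simp
  have h2 : (p : ℤ) ∣ 1 := ⟨m, (Int.cast_injective h1).symm⟩
  have := Int.le_of_dvd one_pos h2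
  have := hp.two_le
  omega

/-- A valuation subring containing `ℤ_(p)` in which `p` is a unit is everything. -/
theorem valuation_eq_one_of_natCast {p : ℕ} (hp : p.Prime) (A : ValuationSubring Qbar)
    (hA : ∀ r : GaloisRep.ratLocalizedAt p, algebraMap _ Qbar r ∈ A)
    (hpA : A.valuation (p : Qbar) = 1) {x : Qbar} (hx : x ≠ 0) : A.valuation x = 1 := by
  have hpinv : (p : Qbar)⁻¹ ∈ A := by rw [← A.valuation_le_one_iff, map_inv₀, hpA, inv_one]
  have hninv : ∀ n : ℕ, n ≠ 0 → (n : Qbar)⁻¹ ∈ A := by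
    intro n hn
    obtain ⟨e, m, hm, rfl⟩ := Nat.exists_eq_pow_mul_and_not_dvd hn p hp.ne_one
    have hmem : ((m : ℚ))⁻¹ ∈ GaloisRep.ratLocalizedAt p := by
      show ((m : ℚ)⁻¹).den.Coprime p
      rw [Rat.inv_natCast_den]
      split_ifs with h
      · simp
      · exact ((hp.coprime_iff_not_dvd).2 hm).symm
    have hm' : (m : Qbar)⁻¹ ∈ A := by
      have := hA ⟨_, hmem⟩
      rwa [show algebraMap (GaloisRep.ratLocalizedAt p) Qbar ⟨(m : ℚ)⁻¹, hmem⟩ =
        algebraMap ℚ Qbar ((m : ℚ)⁻¹) from rfl, map_inv₀, map_natCast] at this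
    rw [Nat.cast_mul, Nat.cast_pow, mul_inv, ← inv_pow]
    exact mul_mem (pow_mem hpinv e) hm'
  have hQ : ∀ r : ℚ, algebraMap ℚ Qbar r ∈ A := by
    intro r
    rw [← Rat.num_div_den r, map_div₀, map_intCast, map_natCast, div_eq_mul_inv]
    exact mul_mem (intCast_mem A _) (hninv _ r.den_nz)
  have hall : ∀ y : Qbar, y ∈ A := by
    intro y
    have hint : IsIntegral ℚ y :=
      ((AlgebraicClosure.isAlgebraic ℚ).isAlgebraic y).isIntegral
    refine Fermat.Agent.EC.mem_of_root_monic A
      (p := (minpoly ℚ y).map ((algebraMap ℚ Qbar).codRestrict A.toSubring hQ))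
      ((minpoly.monic hint).map _) ?_
    rw [aeval_def, Polynomial.eval₂_map]
    exact minpoly.aeval ℚ y
  refine le_antisymm ((A.valuation_le_one_iff x).2 (hall x)) ?_
  have hinv := (A.valuation_le_one_iff x⁻¹).2 (hall x⁻¹)
  rw [map_inv₀] at hinv
  exact (inv_le_one₀ (zero_lt_iff.2 ((Valuation.ne_zero_iff _).2 hx))).1 hinv

theorem exists_avoids (W : WeierstrassCurve ℤ) {p : ℕ} (hp : p.Prime)
    (hgood : W.IsGoodPrimeFor p) {N : ℕ} (hN : N ≠ 0) : ∃ F : ℤ[X], Avoids W N p F := by
  have : Fact p.Prime := ⟨hp⟩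
  set φ := Int.castRingHom (ZMod p)
  have hW : (W.map φ).IsElliptic := by
    constructor
    rw [WeierstrassCurve.map_Δ]
    refine isUnit_iff_ne_zero.2 ?_
    rw [show φ W.Δ = ((W.Δ : ℤ) : ZMod p) from rfl, Ne, ZMod.intCast_zmod_eq_zero_iff_dvd]
    exact hgood
  set Gb := (W.map φ).ΨSq (N : ℤ) with hGb
  have hGb0 : Gb ≠ 0 := ΨSq_ne_zero_of_isElliptic _ (by exact_mod_cast hN)
  obtain ⟨Fb, hFm, hFi, hFd⟩ := exists_monic_irreducible_natDegree p
    (d := max 3 (Gb.natDegree + 1)) (by omega)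
  have hcop : IsCoprime Fb Gb := by
    refine (hFi.coprime_iff_not_dvd).2 fun h => ?_
    have := natDegree_le_of_dvd h hGb0
    omega
  obtain ⟨ab, bb, hab⟩ := hcop
  have hsurj : Function.Surjective (Polynomial.map φ) :=
    Polynomial.map_surjective φ (ZMod.ringHom_surjective φ)
  obtain ⟨a, rfl⟩ := hsurj ab
  obtain ⟨b, rfl⟩ := hsurj bb
  obtain ⟨F, hF, hFdeg, hFmonic⟩ := Polynomial.lifts_and_natDegree_eq_and_monic
    ((Polynomial.mem_lifts _).2 (hsurj Fb)) hFm
  subst hF
  have hdvd : C (p : ℤ) ∣ a * F + b * W.ΨSq (N : ℤ) - 1 := by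
    rw [Polynomial.C_dvd_iff_dvd_coeff]
    intro i
    rw [← ZMod.intCast_zmod_eq_zero_iff_dvd]
    have h0 : (a * F + b * W.ΨSq (N : ℤ) - 1).map φ = 0 := by
      rw [Polynomial.map_sub, Polynomial.map_add, Polynomial.map_mul, Polynomial.map_mul,
        Polynomial.map_one, ← WeierstrassCurve.map_ΨSq, hab, sub_self]
    exact (Polynomial.coeff_map φ i).symm.trans (by rw [h0, coeff_zero])
  obtain ⟨c, hc⟩ := hdvd
  have key : ∀ (x y : Qbar) (h : (curveQbar W).Nonsingular x y),
      (.some x y h : PtQbar W) ∈ Submodule.torsionBy ℤ (PtQbar W) N →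
      aeval x a * aeval x F = 1 + (p : Qbar) * aeval x c := by
    intro x y h hP
    have hzero : ((W.map (algebraMap ℤ Qbar)).ΨSq (N : ℤ)).eval x = 0 := by
      have heq : W.map (algebraMap ℤ Qbar) = curveQbar W := by
        ext <;> simp
      rw [heq]
      exact (zsmul_some_eq_zero_iff h N).1 ((Submodule.mem_torsionBy_iff _ _).1 hP)
    rw [WeierstrassCurve.map_ΨSq, eval_map_algebraMap] at hzero
    have := congrArg (aeval x) hc
    simp only [map_sub, map_add, map_mul, map_one, hzero, mul_zero, add_zero, eq_intCast,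
      Int.cast_natCast, map_natCast] at this
    linear_combination this
  have hne : ∀ (x y : Qbar) (h : (curveQbar W).Nonsingular x y),
      (.some x y h : PtQbar W) ∈ Submodule.torsionBy ℤ (PtQbar W) N → aeval x F ≠ 0 := by
    intro x y h hP hF0
    have hk := key x y h hP
    rw [hF0, mul_zero] at hk
    have hxint : IsIntegral ℤ x := ⟨F, hFmonic, by rwa [← aeval_def]⟩
    have hcint : IsIntegral ℤ (aeval x c) := by
      rw [aeval_eq_sum_range]
      exact IsIntegral.sum _ fun i _ => (hxint.pow i).smul _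
    refine not_isIntegral_inv_natCast (K := Qbar) hp ?_
    have hp0 : (p : Qbar) ≠ 0 := by exact_mod_cast hp.ne_zero
    have : (p : Qbar)⁻¹ = -aeval x c := by
      field_simp
      linear_combination -hk
    rw [this]
    exact hcint.neg
  refine ⟨F, hFmonic, by omega, hne, fun A hA x y h hP hx => ?_⟩
  have hk := key x y h hP
  have hle : ∀ G : ℤ[X], A.valuation (aeval x G) ≤ 1 :=
    valuation_aeval_le_one A ((A.valuation_le_one_iff x).2 hx)
  have hpA : A.valuation (p : Qbar) ≤ 1 := by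
    simpa using valuation_intCast_le_one A (p : ℤ)
  rcases hpA.lt_or_eq with hlt | heq
  · have h1 : A.valuation (aeval x a * aeval x F) = 1 := by
      rw [hk]
      refine A.valuation.map_one_add_of_lt ?_
      rw [map_mul]
      exact mul_lt_one_of_lt_of_le hlt (hle c)
    rw [map_mul] at h1
    refine le_antisymm (hle F) ?_
    calc (1 : A.ValueGroup) = A.valuation (aeval x a) * A.valuation (aeval x F) := h1.symm
      _ ≤ 1 * A.valuation (aeval x F) := by
        exact mul_le_mul_of_nonneg_right (hle a) zero_le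
      _ = _ := one_mul _
  · exact valuation_eq_one_of_natCast hp A hA heq (hne x y h hP)

end Fermat.Agent.EC.Flat
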