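import Mathlib.AlgebraicGeometry.EllipticCurve.Affine.Point
import Mathlib.Tactic.LinearCombination

/-!
# Coordinates of a Weierstrass curve near the origin

`HasAB P a b`: the point `P` has coordinates `a = y / x²`, `b = 1 / x` in the chart at infinity.
-/

set_option autoImplicit false

open WeierstrassCurve.Affine (Point)

namespace Fermat.Agent.EC.Flat

variable {L : Type*} [Field L] [DecidableEq L] {W : WeierstrassCurve.Affine L}

/-- `(a, b) = (y / x², 1 / x)`, extended by `(0, 0)` at the origin. -/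
def HasAB (P : W.Point) (a b : L) : Prop :=
  (P = 0 ∧ a = 0 ∧ b = 0) ∨
    ∃ (x y : L) (h : W.Nonsingular x y), P = .some x y h ∧ x ≠ 0 ∧ a = y / x ^ 2 ∧ b = 1 / x

/-- `1 + a₂b + a₄b² + a₆b³`, that is `(x³ + a₂x² + a₄x + a₆) / x³`. -/
def denAB (W : WeierstrassCurve.Affine L) (b : L) : L :=
  1 + W.a₂ * b + W.a₄ * b ^ 2 + W.a₆ * b ^ 3

/-- `y² / x³` in terms of `(a, b)`. -/
def unitAB (W : WeierstrassCurve.Affine L) (a b : L) : L :=
  denAB W b - W.a₁ * a - W.a₃ * a * b

omit [DecidableEq L] in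
theorem HasAB.equation {P : W.Point} {a b : L} (h : HasAB P a b) :
    a * (a + W.a₁ * b + W.a₃ * b ^ 2) = b * denAB W b := by
  rcases h with ⟨-, rfl, rfl⟩ | ⟨x, y, hns, -, hx, rfl, rfl⟩
  · simp
  · have he := (WeierstrassCurve.Affine.equation_iff _ _).1 hns.1
    simp only [denAB]
    field_simp
    linear_combination he

end Fermat.Agent.EC.Flat
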