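import Fermat.Agent.EC.Flat.Coord
import Fermat.Agent.EC.Red.Qbar
import Fermat.Agent.FiniteFlat.LocalMem
import Fermat.Agent.FiniteFlat.OfFunctions
import Fermat.Prelude.Def_GaloisRep_Flat
import Mathlib.Algebra.Polynomial.Reverse

/-!
# Integral functions on `E[N]`

For a monic integral polynomial `F` avoiding all `x`-coordinates of `N`-torsion points modulo
every place, the functions `xⁱ / F(x)` and `xⁱy / F(x)` generate the coordinate ring of a finite
flat model of `E[N]`.
-/

set_option autoImplicit false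

open WeierstrassCurve.Affine (Point)
open scoped WeierstrassCurve.Affine
open Polynomial Fermat.Agent.FiniteFlat

noncomputable section

namespace Fermat.Agent.EC.Flat

local notation "Qbar" => AlgebraicClosure ℚ
local notation "Rp" p:max => GaloisRep.ratLocalizedAt p

variable (W : WeierstrassCurve ℤ) (N : ℕ)

/-- The curve over `ℚ̄`. -/
abbrev curveQbar : WeierstrassCurve.Affine (AlgebraicClosure ℚ) :=
  ((W.map (Int.castRingHom ℚ))⁄(AlgebraicClosure ℚ)).toAffine

/-- `E(ℚ̄)`. -/
abbrev PtQbar : Type := ((W.map (Int.castRingHom ℚ))⁄(AlgebraicClosure ℚ)).Point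

/-- `E[N](ℚ̄)`. -/
abbrev TorQbar : Type :=
  Submodule.torsionBy ℤ ((W.map (Int.castRingHom ℚ))⁄(AlgebraicClosure ℚ)).Point N

/-- `F` avoids the `x`-coordinates of `N`-torsion at all places containing `ℤ_(p)`. -/
structure Avoids (p : ℕ) (F : ℤ[X]) : Prop where
  monic : F.Monic
  three_le : 3 ≤ F.natDegree
  ne_zero : ∀ (x y : Qbar) (h : (curveQbar W).Nonsingular x y),
    (.some x y h : PtQbar W) ∈ Submodule.torsionBy ℤ (PtQbar W) N → aeval x F ≠ 0
  valuation_eq_one : ∀ (A : ValuationSubring Qbar),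
    (∀ r : Rp p, algebraMap _ Qbar r ∈ A) → ∀ (x y : Qbar) (h : (curveQbar W).Nonsingular x y),
      (.some x y h : PtQbar W) ∈ Submodule.torsionBy ℤ (PtQbar W) N → x ∈ A → A.valuation (aeval x F) = 1

/-- The `x`-coordinate, `0` at the origin. -/
def xOf : (PtQbar W) → Qbar
  | .zero => 0
  | .some x _ _ => x

/-- The `y`-coordinate, `0` at the origin. -/
def yOf : (PtQbar W) → Qbar
  | .zero => 0
  | .some _ y _ => y

/-- `xⁱ / F(x)`, continued to the origin. -/
def phiPt (F : ℤ[X]) (i : ℕ) : (PtQbar W) → Qbar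
  | .zero => if i = F.natDegree then 1 else 0
  | .some x _ _ => x ^ i / aeval x F

/-- `xⁱy / F(x)`, continued to the origin. -/
def psiPt (F : ℤ[X]) (i : ℕ) : (PtQbar W) → Qbar
  | .zero => 0
  | .some x y _ => x ^ i * y / aeval x F

/-- `y / x²`, `0` at the origin. -/
def aOf : (PtQbar W) → Qbar
  | .zero => 0
  | .some x y _ => y / x ^ 2

/-- `1 / x`, `0` at the origin. -/
def bOf : (PtQbar W) → Qbar
  | .zero => 0
  | .some x _ _ => 1 / x

/-- The generators `xⁱ / F(x)` on `E[N]`. -/
def phi (F : ℤ[X]) (i : ℕ) : (TorQbar W N) → Qbar := fun m => phiPt W F i (m : (PtQbar W))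

/-- The generators `xⁱy / F(x)` on `E[N]`. -/
def psi (F : ℤ[X]) (i : ℕ) : (TorQbar W N) → Qbar := fun m => psiPt W F i (m : (PtQbar W))

/-- The generators of the model. -/
def gens (F : ℤ[X]) : Set ((TorQbar W N) → Qbar) :=
  (phi W N F '' Set.Iic F.natDegree) ∪ (psi W N F '' Set.Iic (F.natDegree - 2))

/-- The coordinate ring of the model of `E[N]`. -/
def coordRing (p : ℕ) (F : ℤ[X]) : Subalgebra (Rp p) ((TorQbar W N) → Qbar) :=
  Algebra.adjoin _ (gens W N F)

variable {W N} {p : ℕ} {F : ℤ[X]}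

theorem curveQbar_coeffs : (curveQbar W).a₁ = W.a₁ ∧ (curveQbar W).a₂ = W.a₂ ∧
    (curveQbar W).a₃ = W.a₃ ∧ (curveQbar W).a₄ = W.a₄ ∧ (curveQbar W).a₆ = W.a₆ := by
  simp [curveQbar]

theorem phi_mem {i : ℕ} (hi : i ≤ F.natDegree) : phi W N F i ∈ coordRing W N p F :=
  Algebra.subset_adjoin (Or.inl ⟨i, hi, rfl⟩)

theorem psi_mem {i : ℕ} (hi : i + 2 ≤ F.natDegree) : psi W N F i ∈ coordRing W N p F :=
  Algebra.subset_adjoin (Or.inr ⟨i, Set.mem_Iic.2 (by omega), rfl⟩)

theorem aeval_reverse_eq {x : Qbar} (hx : x ≠ 0) :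
    aeval (1 / x) F.reverse * x ^ F.natDegree = aeval x F := by
  have : Invertible x := invertibleOfNonzero hx
  rw [aeval_def, aeval_def, ← eval₂_reverse_mul_pow (algebraMap ℤ Qbar) x F, invOf_eq_inv, one_div]

/-- The generators in the chart at infinity. -/
theorem phiPt_of_hasAB (hF : F.Monic) {P : (PtQbar W)} {a b : Qbar} (h : HasAB (W := (curveQbar W)) P a b) {i : ℕ}
    (hi : i ≤ F.natDegree) : phiPt W F i P = b ^ (F.natDegree - i) / aeval b F.reverse := by
  rcases h with ⟨rfl, -, rfl⟩ | ⟨x, y, hns, rfl, hx, -, rfl⟩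
  · have h0 : aeval (0 : Qbar) F.reverse = 1 := by
      rw [aeval_def, eval₂_at_zero, coeff_zero_reverse, hF.leadingCoeff, map_one]
    rw [h0, div_one]
    rcases hi.eq_or_lt with rfl | hlt
    · simp [phiPt]
    · simp [phiPt, hlt.ne, Nat.sub_ne_zero_of_lt hlt]
  · simp only [phiPt]
    rw [← aeval_reverse_eq (F := F) hx]
    obtain ⟨k, hk⟩ := Nat.exists_eq_add_of_le hi
    rw [hk, Nat.add_sub_cancel_left, one_div, inv_pow, pow_add]
    field_simp

theorem psiPt_of_hasAB {P : (PtQbar W)} {a b : Qbar} (h : HasAB (W := (curveQbar W)) P a b) {i : ℕ}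
    (hi : i + 2 ≤ F.natDegree) :
    psiPt W F i P = a * b ^ (F.natDegree - (i + 2)) / aeval b F.reverse := by
  rcases h with ⟨rfl, rfl, -⟩ | ⟨x, y, hns, rfl, hx, rfl, rfl⟩
  · simp [psiPt]
  · simp only [psiPt]
    rw [← aeval_reverse_eq (F := F) hx]
    obtain ⟨k, hk⟩ := Nat.exists_eq_add_of_le hi
    rw [hk, Nat.add_sub_cancel_left, one_div, inv_pow, pow_add]
    field_simp
    ring

section Valuation

variable (A : ValuationSubring Qbar)

theorem valuation_aeval_le_one {x : Qbar} (hx : A.valuation x ≤ 1) (G : ℤ[X]) :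
    A.valuation (aeval x G) ≤ 1 := by
  rw [A.valuation_le_one_iff] at hx ⊢
  rw [aeval_eq_sum_range]
  exact sum_mem fun i _ => zsmul_mem (pow_mem hx _) _

theorem valuation_intCast_le_one (n : ℤ) : A.valuation (n : Qbar) ≤ 1 :=
  (A.valuation_le_one_iff _).2 (intCast_mem A n)

theorem valuation_aeval_reverse (hF : F.Monic) {b : Qbar} (hb : A.valuation b < 1) :
    A.valuation (aeval b F.reverse) = 1 := by
  rw [← X_mul_divX_add F.reverse, coeff_zero_reverse, hF.leadingCoeff]
  simp only [map_add, map_mul, aeval_X, map_one]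
  rw [add_comm]
  refine A.valuation.map_one_add_of_lt ?_
  rw [map_mul]
  exact mul_lt_one_of_lt_of_le hb (valuation_aeval_le_one A hb.le _)

/-- A point near the origin has nonunit coordinates at infinity. -/
theorem valuation_coords_lt_one {P : (PtQbar W)} (hP : P = 0 ∨ xOf W P ∉ A) :
    HasAB (W := (curveQbar W)) P (aOf W P) (bOf W P) ∧ A.valuation (aOf W P) < 1 ∧
      A.valuation (bOf W P) < 1 := by
  obtain _ | ⟨x, y, h⟩ := P
  · exact ⟨Or.inl ⟨rfl, rfl, rfl⟩, by simp [aOf], by simp [bOf]⟩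
  have hx : x ∉ A := by
    rcases hP with hP | hP
    · exact absurd hP (Point.some_ne_zero h)
    · exact hP
  have hx0 : x ≠ 0 := fun e => hx (e ▸ A.zero_mem)
  obtain ⟨-, hz, hw⟩ := (qbarModel W A).not_mem_y_of_not_mem_x h.1 hx
  rw [ValuationSubring.mem_nonunits_iff] at hz hw
  have hb : A.valuation (1 / x) < 1 := by
    rw [one_div, ← ValuationSubring.mem_nonunits_iff, ValuationSubring.inv_mem_nonunits_iff]
    exact Or.inr hx
  have hy0 : y ≠ 0 := by
    intro e
    obtain ⟨hy, -, -⟩ := (qbarModel W A).not_mem_y_of_not_mem_x h.1 hx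
    exact hy (e ▸ A.zero_mem)
  have hAB : HasAB (W := (curveQbar W)) (.some x y h) (y / x ^ 2) (1 / x) :=
    Or.inr ⟨x, y, h, rfl, hx0, rfl, rfl⟩
  refine ⟨hAB, ?_, hb⟩
  change A.valuation (y / x ^ 2) < 1
  by_contra hlt
  rw [not_lt] at hlt
  have he := congrArg A.valuation hAB.equation
  set a := y / x ^ 2
  set b := 1 / x
  have hint : ∀ n : ℤ, A.valuation (n : Qbar) ≤ 1 := valuation_intCast_le_one A
  have hb2 : A.valuation (b ^ 2) < 1 := by
    rw [pow_two, map_mul]; exact mul_lt_one_of_lt_of_le hb hb.le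
  have hsmall : ∀ (n : ℤ) (c : Qbar), A.valuation c < 1 → A.valuation ((n : Qbar) * c) < 1 :=
    fun n c hc => by rw [map_mul, mul_comm]; exact mul_lt_one_of_lt_of_le hc (hint n)
  have h1 : A.valuation (a + ((curveQbar W).a₁ * b + (curveQbar W).a₃ * b ^ 2)) = A.valuation a := by
    refine A.valuation.map_add_eq_of_lt_left (lt_of_lt_of_le ?_ hlt)
    simpa [(curveQbar_coeffs (W := W)).1, (curveQbar_coeffs (W := W)).2.2.1] using
      A.valuation.map_add_lt (hsmall W.a₁ b hb) (hsmall W.a₃ _ hb2)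
  have hd : A.valuation (denAB (curveQbar W) b) ≤ 1 := by
    rw [A.valuation_le_one_iff]
    have hbA : b ∈ A := (A.valuation_le_one_iff _).1 hb.le
    obtain ⟨-, e2, -, e4, e6⟩ := curveQbar_coeffs (W := W)
    simp only [denAB, e2, e4, e6]
    exact add_mem (add_mem (add_mem A.one_mem (mul_mem (intCast_mem A _) hbA))
      (mul_mem (intCast_mem A _) (pow_mem hbA _))) (mul_mem (intCast_mem A _) (pow_mem hbA _))
  rw [map_mul, map_mul, add_assoc a, h1] at he
  have hlt' : A.valuation b * A.valuation (denAB (curveQbar W) b) < 1 := mul_lt_one_of_lt_of_le hb hd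
  rw [← he] at hlt'
  exact absurd hlt' (not_lt.2 (one_le_mul hlt hlt))

end Valuation

section Torsion

variable (hF : Avoids W N p F)
include hF

theorem isIntegral_of_mem_gens {f : (TorQbar W N) → Qbar} (hf : f ∈ gens W N F) [Finite (TorQbar W N)] :
    IsIntegral (Rp p) f := by
  refine isIntegral_pi_of_forall f fun m =>
    isIntegral_of_forall_mem_valuationSubring _ fun A hA => ?_
  obtain ⟨P, hP⟩ := m
  rw [← A.valuation_le_one_iff]
  by_cases hfar : P = 0 ∨ xOf W P ∉ A
  · obtain ⟨hAB, ha, hb⟩ := valuation_coords_lt_one A hfar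
    have hr := valuation_aeval_reverse A hF.monic hb
    rcases hf with ⟨i, hi, rfl⟩ | ⟨i, hi, rfl⟩
    · simp only [phi]
      rw [phiPt_of_hasAB hF.monic hAB (Set.mem_Iic.1 hi), map_div₀, hr, div_one, map_pow]
      exact pow_le_one₀ zero_le hb.le
    · simp only [psi]
      have := hF.three_le
      rw [psiPt_of_hasAB hAB (by rw [Set.mem_Iic] at hi; omega), map_div₀, hr, div_one, map_mul,
        map_pow]
      exact mul_le_one₀ ha.le zero_le (pow_le_one₀ zero_le hb.le)
  · simp only [not_or, not_not] at hfar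
    obtain _ | ⟨x, y, h⟩ := P
    · exact absurd rfl hfar.1
    have hx : x ∈ A := hfar.2
    have hy := (qbarModel W A).mem_y_of_mem_x h.1 hx
    have hr := hF.valuation_eq_one A hA x y h hP hx
    rcases hf with ⟨i, -, rfl⟩ | ⟨i, -, rfl⟩
    · simp only [phi, phiPt]
      rw [map_div₀, hr, div_one, A.valuation_le_one_iff]
      exact pow_mem hx i
    · simp only [psi, psiPt]
      rw [map_div₀, hr, div_one, A.valuation_le_one_iff]
      exact mul_mem (pow_mem hx i) hy

theorem moduleFinite_coordRing [Finite (TorQbar W N)] : Module.Finite (Rp p) (coordRing W N p F) :=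
  Module.Finite.iff_fg.2 (fg_adjoin_of_finite
    (((Set.finite_Iic _).image _).union ((Set.finite_Iic _).image _))
    fun _ hf => isIntegral_of_mem_gens hF hf)

omit hF in
theorem gens_equivariant {f : (TorQbar W N) → Qbar} (hf : f ∈ gens W N F)
    (σ : Qbar ≃ₐ[ℚ] Qbar) (m : (TorQbar W N)) : f (σ • m) = σ (f m) := by
  obtain ⟨_ | ⟨x, y, h⟩, hP⟩ := m
  · rcases hf with ⟨i, -, rfl⟩ | ⟨i, -, rfl⟩
    · change phiPt W F i (.zero : PtQbar W) = σ (phiPt W F i (.zero : PtQbar W))
      simp only [phiPt]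
      split_ifs <;> simp
    · change psiPt W F i (.zero : PtQbar W) = σ (psiPt W F i (.zero : PtQbar W))
      simp [psiPt]
  · obtain ⟨h', e⟩ := exists_smul_some W σ h
    have haev : aeval (σ x) F = σ (aeval x F) :=
      aeval_algHom_apply ((σ : Qbar →ₐ[ℚ] Qbar).restrictScalars ℤ) x F
    rcases hf with ⟨i, -, rfl⟩ | ⟨i, -, rfl⟩
    · change phiPt W F i (σ • (.some x y h : (PtQbar W))) = _
      rw [e]
      simp [phi, phiPt, haev]
    · change psiPt W F i (σ • (.some x y h : (PtQbar W))) = _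
      rw [e]
      simp [psi, psiPt, haev]

omit hF in
theorem coordRing_equivariant {f : (TorQbar W N) → Qbar} (hf : f ∈ coordRing W N p F)
    (σ : Qbar ≃ₐ[ℚ] Qbar) (m : (TorQbar W N)) : f (σ • m) = σ (f m) := by
  induction hf using Algebra.adjoin_induction with
  | mem g hg => exact gens_equivariant hg σ m
  | algebraMap r =>
    simp [IsScalarTower.algebraMap_apply (Rp p) ℚ Qbar]
  | add g g' _ _ hg hg' => simp [hg, hg']
  | mul g g' _ _ hg hg' => simp [hg, hg']

theorem coordRing_separates (m m' : (TorQbar W N)) (hne : m ≠ m') :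
    ∃ f ∈ coordRing W N p F, f m ≠ f m' := by
  have h3 := hF.three_le
  by_contra hall
  simp only [not_exists, not_and, not_not] at hall
  have e0 := hall _ (phi_mem (i := 0) (Nat.zero_le _))
  have e1 := hall _ (phi_mem (i := 1) (by omega))
  have e2 := hall _ (psi_mem (i := 0) (by omega))
  apply hne
  obtain ⟨_ | ⟨x, y, h⟩, hP⟩ := m <;> obtain ⟨_ | ⟨x', y', h'⟩, hP'⟩ := m'
  · rfl
  · have := hF.ne_zero x' y' h' hP'
    have hd : 0 ≠ F.natDegree := by omega
    simp [phi, phiPt, hd] at e0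
    exact absurd (by simp [e0]) this
  · have := hF.ne_zero x y h hP
    have hd : 0 ≠ F.natDegree := by omega
    simp [phi, phiPt, hd] at e0
    exact absurd (by simp [e0]) this
  · have hn := hF.ne_zero x y h hP
    simp only [phi, phiPt, psi, psiPt, pow_zero, pow_one, one_mul, one_div] at e0 e1 e2
    have eF : aeval x F = aeval x' F := inv_injective e0
    rw [← eF, div_left_inj' hn] at e1 e2
    subst e1; subst e2
    rfl

omit hF in
theorem pullback_neg_mem (hF3 : 3 ≤ F.natDegree) {f : (TorQbar W N) → Qbar}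
    (hf : f ∈ coordRing W N p F) :
    funPullback (Rp p) (fun m : (TorQbar W N) => -m) f ∈ coordRing W N p F := by
  have hle : coordRing W N p F ≤
      (coordRing W N p F).comap (funPullback (Rp p) fun m : (TorQbar W N) => -m) := by
    refine Algebra.adjoin_le ?_
    rintro g (⟨i, hi, rfl⟩ | ⟨i, hi, rfl⟩)
    · have : funPullback (Rp p) (fun m : (TorQbar W N) => -m) (phi W N F i) = phi W N F i := by
        funext ⟨P, hP⟩
        obtain _ | ⟨x, y, h⟩ := P <;> rfl
      change funPullback (Rp p) (fun m : (TorQbar W N) => -m) (phi W N F i) ∈ coordRing W N p F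
      rw [this]
      exact phi_mem hi
    · rw [Set.mem_Iic] at hi
      have : funPullback (Rp p) (fun m : (TorQbar W N) => -m) (psi W N F i) =
          -psi W N F i - (algebraMap (Rp p) ((TorQbar W N) → Qbar) W.a₁) * phi W N F (i + 1)
            - (algebraMap (Rp p) ((TorQbar W N) → Qbar) W.a₃) * phi W N F i := by
        funext ⟨P, hP⟩
        obtain _ | ⟨x, y, h⟩ := P
        · change (0 : Qbar) = -0 - _ * (if i + 1 = F.natDegree then 1 else 0)
            - _ * (if i = F.natDegree then 1 else 0)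
          rw [if_neg (by omega), if_neg (by omega)]
          simp
        · change x ^ i * (curveQbar W).negY x y / aeval x F = -(x ^ i * y / aeval x F)
            - (algebraMap (Rp p) Qbar W.a₁) * (x ^ (i + 1) / aeval x F)
            - (algebraMap (Rp p) Qbar W.a₃) * (x ^ i / aeval x F)
          simp only [WeierstrassCurve.Affine.negY, (curveQbar_coeffs (W := W)).1,
            (curveQbar_coeffs (W := W)).2.2.1, map_intCast]
          ring
      change funPullback (Rp p) (fun m : (TorQbar W N) => -m) (psi W N F i) ∈ coordRing W N p F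
      rw [this]
      exact Subalgebra.sub_mem _ (Subalgebra.sub_mem _ (Subalgebra.neg_mem _ (psi_mem (by omega)))
        (mul_mem (Subalgebra.algebraMap_mem _ _) (phi_mem (by omega))))
        (mul_mem (Subalgebra.algebraMap_mem _ _) (phi_mem (by omega)))
  exact hle hf

end Torsion

end Fermat.Agent.EC.Flat
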