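import Fermat.Agent.EC.Tate.Adic
import Fermat.Prelude.Def_GaloisRep_Flat
import Mathlib.RingTheory.Ideal.Quotient.Operations
import Mathlib.Data.ZMod.QuotientRing

/-!
# Flatness of the `p`-adic and mod `p` representations from finite flat models of `E[N]`

If each `E[N]` consists, equivariantly, of the points of a finite flat cocommutative Hopf algebra
over `ℤ_(p)`, then `tateRep W p` and the mod `p` representation are flat at `p`.
-/

namespace Fermat.Agent.EC

open scoped WeierstrassCurve.Affine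

local notation "Qbar" => AlgebraicClosure ℚ

section Glue

variable {p : ℕ} {T : Type} [AddCommGroup T] [DistribMulAction (Qbar ≃ₐ[ℚ] Qbar) T]

variable (p T) in
/-- `T` is, equivariantly, the group of points of a finite flat cocommutative Hopf algebra over
`ℤ_(p)`. -/
def HasFlatModel : Prop :=
  ∃ (H : Type) (_ : CommRing H) (_ : HopfAlgebra (GaloisRep.ratLocalizedAt p) H),
    Module.Finite (GaloisRep.ratLocalizedAt p) H ∧
    Module.Flat (GaloisRep.ratLocalizedAt p) H ∧
    Coalgebra.IsCocomm (GaloisRep.ratLocalizedAt p) H ∧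
    ∃ e : WithConv (H →ₐ[GaloisRep.ratLocalizedAt p] Qbar) ≃ T,
      (∀ f g : WithConv (H →ₐ[GaloisRep.ratLocalizedAt p] Qbar), e (f * g) = e f + e g) ∧
      ∀ (σ : Qbar ≃ₐ[ℚ] Qbar) (f g : WithConv (H →ₐ[GaloisRep.ratLocalizedAt p] Qbar)),
        (∀ h : H, g h = σ (f h)) → e g = σ • e f

/-- A flat model of an equivariant quotient gives the clause of `IsFlatAt` at that ideal. -/
theorem flat_level_of_surjective {A : Type} [CommRing A] [IsLocalRing A] (ρ : GaloisRepAdic A)
    (I : Ideal A) (π : ρ.V →+ T) (hπ : Function.Surjective π)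
    (hker : ∀ v, π v = 0 ↔ v ∈ I • (⊤ : Submodule A ρ.V))
    (hequiv : ∀ σ v, π (ρ.ρ σ v) = σ • π v) (h : HasFlatModel p T) :
    ∃ (H : Type) (_ : CommRing H) (_ : HopfAlgebra (GaloisRep.ratLocalizedAt p) H),
      Module.Finite (GaloisRep.ratLocalizedAt p) H ∧
      Module.Flat (GaloisRep.ratLocalizedAt p) H ∧
      Coalgebra.IsCocomm (GaloisRep.ratLocalizedAt p) H ∧
      ∃ e : WithConv (H →ₐ[GaloisRep.ratLocalizedAt p] Qbar) ≃
          (ρ.V ⧸ (I • (⊤ : Submodule A ρ.V))),
        (∀ f g : WithConv (H →ₐ[GaloisRep.ratLocalizedAt p] Qbar), e (f * g) = e f + e g) ∧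
        ∀ (σ : Qbar ≃ₐ[ℚ] Qbar) (f g : WithConv (H →ₐ[GaloisRep.ratLocalizedAt p] Qbar)),
          (∀ h : H, g h = σ (f h)) → e g = ρ.levelAction I σ (e f) := by
  let φ : ρ.V ⧸ (I • (⊤ : Submodule A ρ.V)) →+ T :=
    QuotientAddGroup.lift (I • (⊤ : Submodule A ρ.V)).toAddSubgroup π fun v hv => (hker v).2 hv
  have hmk : ∀ v, φ (Submodule.Quotient.mk v) = π v := fun v => rfl
  have hbij : Function.Bijective φ := by
    refine ⟨?_, fun t => ?_⟩
    · rw [injective_iff_map_eq_zero]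
      intro q hq
      obtain ⟨v, rfl⟩ := Submodule.Quotient.mk_surjective _ q
      exact (Submodule.Quotient.mk_eq_zero _).2 ((hker v).1 hq)
    · obtain ⟨v, rfl⟩ := hπ t
      exact ⟨Submodule.Quotient.mk v, hmk v⟩
  have hsmul : ∀ σ q, φ (ρ.levelAction I σ q) = σ • φ q := fun σ q => by
    obtain ⟨v, rfl⟩ := Submodule.Quotient.mk_surjective _ q
    exact hequiv σ v
  obtain ⟨H, iC, iH, hfin, hflat, hco, e, hadd, hact⟩ := h
  have hsymm : ∀ t, φ ((Equiv.ofBijective φ hbij).symm t) = t :=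
    (Equiv.ofBijective φ hbij).apply_symm_apply
  refine ⟨H, iC, iH, hfin, hflat, hco, e.trans (Equiv.ofBijective φ hbij).symm,
    fun f g => hbij.1 ?_, fun σ f g hfg => hbij.1 ?_⟩
  · simp [hsymm, hadd]
  · simp [hsymm, hsmul, hact σ f g hfg]

end Glue

variable (W : WeierstrassCurve ℚ) [W.IsElliptic] (p : ℕ) [hp : Fact p.Prime]

/-- The `p`-adic representation is flat at `p` if all torsion levels have flat models. -/
theorem tateRep_isFlatAt_of
    (h : ∀ N : ℕ, N ≠ 0 → ∃ (H : Type) (_ : CommRing H)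
      (_ : HopfAlgebra (GaloisRep.ratLocalizedAt p) H),
      Module.Finite (GaloisRep.ratLocalizedAt p) H ∧
      Module.Flat (GaloisRep.ratLocalizedAt p) H ∧
      Coalgebra.IsCocomm (GaloisRep.ratLocalizedAt p) H ∧
      ∃ e : WithConv (H →ₐ[GaloisRep.ratLocalizedAt p] Qbar) ≃
          Submodule.torsionBy ℤ (W⁄Qbar).Point N,
        (∀ f g : WithConv (H →ₐ[GaloisRep.ratLocalizedAt p] Qbar), e (f * g) = e f + e g) ∧
        ∀ (σ : Qbar ≃ₐ[ℚ] Qbar) (f g : WithConv (H →ₐ[GaloisRep.ratLocalizedAt p] Qbar)),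
          (∀ x : H, g x = σ (f x)) → e g = σ • e f) :
    (tateRep W p).IsFlatAt p := by
  refine ⟨Finite.of_equiv _ PadicInt.residueField.symm.toEquiv, fun I hI => ?_⟩
  have hne : I ≠ ⊥ := by
    rintro rfl
    exact not_finite (α := ℤ_[p] ⧸ (⊥ : Ideal ℤ_[p])) |>.elim
  obtain ⟨n, rfl⟩ := PadicInt.ideal_eq_span_pow_p hne
  refine flat_level_of_surjective (tateRep W p) _ (tateProj W p n) (tateProj_surjective W p n)
    (fun v => ?_) (fun σ v => tateProj_ρ W p n σ v) (h (p ^ n) (pow_ne_zero n hp.out.ne_zero))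
  rw [tateProj_eq_zero_iff, PadicInt.maximalIdeal_eq_span_p, Ideal.span_singleton_pow]

/-- The mod `p` representation is flat at `p` if all torsion levels have flat models. -/
theorem torsionRepRat_isFlatAt_of
    (h : ∀ N : ℕ, N ≠ 0 → ∃ (H : Type) (_ : CommRing H)
      (_ : HopfAlgebra (GaloisRep.ratLocalizedAt p) H),
      Module.Finite (GaloisRep.ratLocalizedAt p) H ∧
      Module.Flat (GaloisRep.ratLocalizedAt p) H ∧
      Coalgebra.IsCocomm (GaloisRep.ratLocalizedAt p) H ∧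
      ∃ e : WithConv (H →ₐ[GaloisRep.ratLocalizedAt p] Qbar) ≃
          Submodule.torsionBy ℤ (W⁄Qbar).Point N,
        (∀ f g : WithConv (H →ₐ[GaloisRep.ratLocalizedAt p] Qbar), e (f * g) = e f + e g) ∧
        ∀ (σ : Qbar ≃ₐ[ℚ] Qbar) (f g : WithConv (H →ₐ[GaloisRep.ratLocalizedAt p] Qbar)),
          (∀ x : H, g x = σ (f x)) → e g = σ • e f) :
    (GaloisRepAdic.ofResidualGaloisRep (torsionRepRat W p)).IsFlatAt p := by
  set ρ := GaloisRepAdic.ofResidualGaloisRep (torsionRepRat W p) with hρ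
  refine ⟨Finite.of_surjective _ Ideal.Quotient.mk_surjective, fun I _ => ?_⟩
  rcases Ideal.eq_bot_or_top I with rfl | rfl
  · refine flat_level_of_surjective ρ _
      (AddMonoidHom.id (Submodule.torsionBy ℤ (W⁄Qbar).Point p)) (fun t => ⟨t, rfl⟩) (fun v => ?_)
      (fun σ v => rfl) (h p hp.out.ne_zero)
    rw [Submodule.bot_smul, Submodule.mem_bot]
    rfl
  · have : Subsingleton (Submodule.torsionBy ℤ (W⁄Qbar).Point (1 : ℕ)) :=
      ⟨fun a b => Subtype.ext <| by
        have ha := (Submodule.mem_torsionBy_iff _ _).1 a.2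
        have hb := (Submodule.mem_torsionBy_iff _ _).1 b.2
        simp only [Nat.cast_one, one_smul] at ha hb
        rw [ha, hb]⟩
    exact flat_level_of_surjective ρ _
      (0 : ρ.V →+ Submodule.torsionBy ℤ (W⁄Qbar).Point (1 : ℕ))
      (fun t => ⟨0, Subsingleton.elim _ _⟩)
      (fun v => by simp)
      (fun σ v => Subsingleton.elim _ _) (h 1 one_ne_zero)

end Fermat.Agent.EC
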