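import Fermat.Agent.EC.Flat.Add
import Fermat.Agent.EC.Flat.Avoid
import Fermat.Agent.EC.Flat.Tate
import Fermat.Agent.EC.Torsion.Rat
import Fermat.Agent.Igusa.LocalRat
import Mathlib.FieldTheory.Galois.Basic
import Mathlib.FieldTheory.Perfect

/-!
# `E[N]` at a good prime is finite flat

For an integral Weierstrass curve with good reduction at `p` and any `N ≠ 0`, the Galois module
`E[N]` consists of the points of a finite flat cocommutative Hopf algebra over `ℤ_(p)`.
-/

set_option autoImplicit false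

open scoped WeierstrassCurve.Affine
open Polynomial IsLocalRing Fermat.Agent.FiniteFlat

noncomputable section

namespace Fermat.Agent.EC

open Flat

local notation "Qbar" => AlgebraicClosure ℚ

namespace Flat

variable {W : WeierstrassCurve ℤ} {N p : ℕ} {F : ℤ[X]} {X : Type}
  {T : Subalgebra (GaloisRep.ratLocalizedAt p) (X → Qbar)} {A : ValuationSubring Qbar} {x₀ : X}

theorem coe_aeval_apply (u : locRing T A x₀) (G : ℤ[X]) (x : X) :
    ((aeval u G : locRing T A x₀) : X → Qbar) x = aeval ((u : X → Qbar) x) G :=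
  (aeval_algHom_apply
    ((Pi.evalRingHom (fun _ : X => Qbar) x).comp (locRing T A x₀).subtype).toIntAlgHom u G).symm

theorem locRes_aeval_reverse (hF : F.Monic) {b : locRing T A x₀}
    (hb : locRes T A x₀ b = 0) : locRes T A x₀ (aeval b F.reverse) = 1 := by
  rw [← X_mul_divX_add F.reverse, coeff_zero_reverse, hF.leadingCoeff]
  simp [hb]

/-- The generators composed with a point of `E[N]` which is locally given by integral
coordinates lie in the local ring. -/
theorem locMem_gens_comp (hF : Avoids W N p F)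
    (hA : ∀ r : GaloisRep.ratLocalizedAt p, algebraMap _ Qbar r ∈ A) (σ : X → TorQbar W N)
    (hσ : (∃ u v : locRing T A x₀, AffineAt T A x₀ (fun x => (σ x : PtQbar W)) u v) ∨
      ∃ a b : locRing T A x₀, OriginAt T A x₀ (fun x => (σ x : PtQbar W)) a b)
    {g : TorQbar W N → Qbar} (hg : g ∈ gens W N F) : LocMem T A x₀ (g ∘ σ) := by
  have h3 := hF.three_le
  rcases hσ with ⟨u, v, huv⟩ | ⟨a, b, -, hb, hab⟩
  · obtain ⟨h0, e0⟩ := huv.self
    have hv : A.valuation (aeval ((u : X → Qbar) x₀) F) = 1 := by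
      refine hF.valuation_eq_one A hA _ _ h0 ?_ u.2.2
      rw [← e0]
      exact (σ x₀).2
    set G : locRing T A x₀ := aeval u F
    have hG : locRes T A x₀ G ≠ 0 := by
      intro h
      rw [locRes_eq_zero_iff, coe_aeval_apply, hv] at h
      exact lt_irrefl _ h
    rcases hg with ⟨i, -, rfl⟩ | ⟨i, -, rfl⟩
    · refine (u ^ i * locInv G hG).2.1.congr (huv.mono ?_)
      rintro x ⟨h, e⟩
      simp only [Function.comp_apply, phi, e, phiPt]
      simp [G, coe_aeval_apply, div_eq_mul_inv]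
    · refine (u ^ i * v * locInv G hG).2.1.congr (huv.mono ?_)
      rintro x ⟨h, e⟩
      simp only [Function.comp_apply, psi, e, psiPt]
      simp [G, coe_aeval_apply, div_eq_mul_inv]
  · set G : locRing T A x₀ := aeval b F.reverse
    have hG : locRes T A x₀ G ≠ 0 := by
      rw [locRes_aeval_reverse hF.monic hb]
      exact one_ne_zero
    rcases hg with ⟨i, hi, rfl⟩ | ⟨i, hi, rfl⟩
    · refine (b ^ (F.natDegree - i) * locInv G hG).2.1.congr (hab.mono fun x hx => ?_)
      simp only [Function.comp_apply, phi, phiPt_of_hasAB hF.monic hx (Set.mem_Iic.1 hi)]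
      simp [G, coe_aeval_apply, div_eq_mul_inv]
    · refine (a * b ^ (F.natDegree - (i + 2)) * locInv G hG).2.1.congr (hab.mono fun x hx => ?_)
      rw [Set.mem_Iic] at hi
      simp only [Function.comp_apply, psi, psiPt_of_hasAB hx (show i + 2 ≤ F.natDegree by omega)]
      simp [G, coe_aeval_apply, div_eq_mul_inv]

theorem specialFibre_Δ_ne_zero_of_le (hp : p.Prime) (hgood : W.IsGoodPrimeFor p)
    (hA : ∀ r : GaloisRep.ratLocalizedAt p, algebraMap _ Qbar r ∈ A) :
    (specialFibre W A).Δ ≠ 0 := by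
  have hΔ : W.Δ ≠ 0 := fun h => hgood (h ▸ dvd_zero _)
  have hmem : ((W.Δ : ℚ))⁻¹ ∈ GaloisRep.ratLocalizedAt p := by
    show ((W.Δ : ℚ)⁻¹).den.Coprime p
    rw [Rat.inv_intCast_den, if_neg hΔ]
    exact (hp.coprime_iff_not_dvd.2 fun h => hgood (Int.natCast_dvd.2 h)).symm
  have hinv : (W.Δ : Qbar)⁻¹ ∈ A := by
    have := hA ⟨_, hmem⟩
    rwa [show algebraMap (GaloisRep.ratLocalizedAt p) Qbar ⟨(W.Δ : ℚ)⁻¹, hmem⟩ =
      algebraMap ℚ Qbar ((W.Δ : ℚ)⁻¹) from rfl, map_inv₀, map_intCast] at this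
  rw [WeierstrassCurve.map_Δ, eq_intCast]
  have hu : IsUnit ((W.Δ : ℤ) : A) := by
    refine isUnit_iff_exists_inv.2 ⟨⟨_, hinv⟩, Subtype.ext ?_⟩
    push_cast
    exact mul_inv_cancel₀ (by exact_mod_cast hΔ)
  rw [← map_intCast (residue A)]
  exact (hu.map (residue A)).ne_zero

/-- The coordinate ring is closed under comultiplication. -/
theorem pullback_add_mem (hp : p.Prime) (hgood : W.IsGoodPrimeFor p) (hF : Avoids W N p F)
    [Finite (TorQbar W N)] {f : TorQbar W N → Qbar} (hf : f ∈ coordRing W N p F) :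
    funPullback (GaloisRep.ratLocalizedAt p) (fun q : TorQbar W N × TorQbar W N => q.1 + q.2) f ∈
      (coordRing W N p F).map (funPullback _ Prod.fst) ⊔
        (coordRing W N p F).map (funPullback _ Prod.snd) := by
  set H := coordRing W N p F
  set T₂ := H.map (funPullback (GaloisRep.ratLocalizedAt p)
      (Prod.fst : TorQbar W N × TorQbar W N → TorQbar W N)) ⊔
    H.map (funPullback (GaloisRep.ratLocalizedAt p)
      (Prod.snd : TorQbar W N × TorQbar W N → TorQbar W N))
  have h1 : ∀ g ∈ H, g ∘ Prod.fst ∈ T₂ := fun g hg =>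
    (le_sup_left : _ ≤ T₂) ⟨g, hg, rfl⟩
  have h2 : ∀ g ∈ H, g ∘ Prod.snd ∈ T₂ := fun g hg =>
    (le_sup_right : _ ≤ T₂) ⟨g, hg, rfl⟩
  have hle : H ≤ T₂.comap (funPullback (GaloisRep.ratLocalizedAt p)
      fun q : TorQbar W N × TorQbar W N => q.1 + q.2) := by
    refine Algebra.adjoin_le fun g hg => ?_
    refine mem_of_forall_locMem T₂ _ fun A hA x₀ => ?_
    have hΔ := specialFibre_Δ_ne_zero_of_le (W := W) (A := A) hp hgood hA
    refine locMem_gens_comp hF hA (fun q : TorQbar W N × TorQbar W N => q.1 + q.2) ?_ hg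
    rcases exists_coords (x₀ := x₀) hF hA Prod.fst h1 with ⟨u₁, v₁, hP⟩ | ⟨a₁, b₁, hP⟩ <;>
      rcases exists_coords (x₀ := x₀) hF hA Prod.snd h2 with ⟨u₂, v₂, hQ⟩ | ⟨a₂, b₂, hQ⟩
    · exact sum_affine_affine hΔ hP hQ
    · exact Or.inl (sum_affine_origin hP hQ)
    · obtain ⟨u, v, h⟩ := sum_affine_origin hQ hP
      exact Or.inl ⟨u, v, h.mono fun x ⟨hh, e⟩ => ⟨hh, by
        rw [← e]; exact add_comm _ _⟩⟩
    · exact Or.inr (sum_origin_origin hP hQ)
  exact hle hf

end Flat

variable (W : WeierstrassCurve ℤ) {p : ℕ} [hp : Fact p.Prime]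

/-- **Finite flatness of `E[N]` at a good prime.** -/
theorem exists_hopf_torsion (hgood : W.IsGoodPrimeFor p) (N : ℕ) (hN : N ≠ 0) :
    ∃ (H : Type) (_ : CommRing H) (_ : HopfAlgebra (GaloisRep.ratLocalizedAt p) H),
      Module.Finite (GaloisRep.ratLocalizedAt p) H ∧
      Module.Flat (GaloisRep.ratLocalizedAt p) H ∧
      Coalgebra.IsCocomm (GaloisRep.ratLocalizedAt p) H ∧
      ∃ e : WithConv (H →ₐ[GaloisRep.ratLocalizedAt p] Qbar) ≃
          Submodule.torsionBy ℤ ((W.map (Int.castRingHom ℚ))⁄Qbar).Point N,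
        (∀ f g : WithConv (H →ₐ[GaloisRep.ratLocalizedAt p] Qbar), e (f * g) = e f + e g) ∧
        ∀ (σ : Qbar ≃ₐ[ℚ] Qbar) (f g : WithConv (H →ₐ[GaloisRep.ratLocalizedAt p] Qbar)),
          (∀ x : H, g x = σ (f x)) → e g = σ • e f := by
  have hΔ : W.Δ ≠ 0 := fun h => hgood (h ▸ dvd_zero _)
  have : (W.map (Int.castRingHom ℚ)).IsElliptic :=
    ⟨by rw [WeierstrassCurve.map_Δ]
        exact (Int.cast_ne_zero.2 hΔ : ((W.Δ : ℤ) : ℚ) ≠ 0).isUnit⟩
  have : Finite (TorQbar W N) := finite_torsion_rat (W.map (Int.castRingHom ℚ)) hN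
  obtain ⟨F, hF⟩ := exists_avoids W hp.out hgood hN
  have := moduleFinite_coordRing hF
  have : IsAlgClosure ℚ Qbar := ⟨inferInstance, AlgebraicClosure.isAlgebraic ℚ⟩
  have : IsGalois ℚ Qbar := IsAlgClosure.isGalois ℚ Qbar
  exact exists_hopfAlgebra_of_functions (k := ℚ) (coordRing W N p F)
    (fun f hf σ m => coordRing_equivariant hf σ m) (coordRing_separates hF)
    (fun f hf => pullback_add_mem hp.out hgood hF hf)
    (fun f hf => pullback_neg_mem hF.three_le hf)

/-- The Tate module of a curve with good reduction at `p` is flat at `p`. -/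
theorem tateRep_isFlatAt (hgood : W.IsGoodPrimeFor p)
    [(W.map (Int.castRingHom ℚ)).IsElliptic] :
    (tateRep (W.map (Int.castRingHom ℚ)) p).IsFlatAt p :=
  tateRep_isFlatAt_of _ p fun N hN => exists_hopf_torsion W hgood N hN

/-- `E[p]` of a curve with good reduction at `p` is flat at `p`. -/
theorem torsionRepRat_isFlatAt (hgood : W.IsGoodPrimeFor p)
    [(W.map (Int.castRingHom ℚ)).IsElliptic] :
    (GaloisRepAdic.ofResidualGaloisRep (torsionRepRat (W.map (Int.castRingHom ℚ)) p)).IsFlatAt p :=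
  torsionRepRat_isFlatAt_of _ p fun N hN => exists_hopf_torsion W hgood N hN

end Fermat.Agent.EC
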